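import Mathlib
import Fermat.Prelude.Def_ModularCurve_X0ModL

/-!
# S28/Export/DescentQ: `L(S) ∩ ℚ((q)) = ℚ(S)` for sets `S` of rational Laurent series
-/

set_option autoImplicit false

noncomputable section

open ModularCurve Polynomial

namespace Fermat.Agent.S28.Export

namespace DescentQ

variable {L : Type*} [Field L] [CharZero L]

/-- Apply a `ℚ`-linear functional coefficientwise. -/
def lam (π : L →ₗ[ℚ] ℚ) (y : LaurentSeries L) : LaurentSeries ℚ := y.map π

@[simp] theorem lam_coeff (π : L →ₗ[ℚ] ℚ) (y : LaurentSeries L) (k : ℤ) :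
    (lam π y).coeff k = π (y.coeff k) := rfl

theorem lam_add (π : L →ₗ[ℚ] ℚ) (x y : LaurentSeries L) :
    lam π (x + y) = lam π x + lam π y := by
  ext k
  simp

theorem lam_zero (π : L →ₗ[ℚ] ℚ) : lam π (0 : LaurentSeries L) = 0 := by
  ext k
  simp

theorem coeff_algebraMap_mul {K : Type*} [Field K] (c : K) (y : LaurentSeries K) (k : ℤ) :
    (algebraMap K (LaurentSeries K) c * y).coeff k = c * y.coeff k := by
  rw [algebraMap_laurentSeries_eq_single]
  have := HahnSeries.coeff_single_mul_add (r := c) (x := y) (a := k) (b := 0)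
  rwa [add_zero] at this

theorem lam_const_mul_coeffMap (π : L →ₗ[ℚ] ℚ) (c : L) (e : LaurentSeries ℚ) :
    lam π (algebraMap L (LaurentSeries L) c * coeffMap (algebraMap ℚ L) e) =
      algebraMap ℚ (LaurentSeries ℚ) (π c) * e := by
  ext k
  rw [lam_coeff, coeff_algebraMap_mul, coeff_algebraMap_mul, coeffMap_coeff]
  have : c * (algebraMap ℚ L) (e.coeff k) = (e.coeff k) • c := by
    rw [Algebra.smul_def, mul_comm]
  rw [this, map_smul, smul_eq_mul, mul_comm]

/-- The multiplicative monoid of the products `c * ψ e`, `c ∈ L`, `e ∈ E`. -/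
def gens (L : Type*) [Field L] [CharZero L] (E : IntermediateField ℚ (LaurentSeries ℚ)) :
    Submonoid (LaurentSeries L) where
  carrier := {x | ∃ (c : L) (e : LaurentSeries ℚ), e ∈ E ∧
    x = algebraMap L (LaurentSeries L) c * coeffMap (algebraMap ℚ L) e}
  mul_mem' := by
    rintro _ _ ⟨c, e, he, rfl⟩ ⟨c', e', he', rfl⟩
    refine ⟨c * c', e * e', E.mul_mem he he', ?_⟩
    rw [map_mul, map_mul]
    ring
  one_mem' := ⟨1, 1, E.one_mem, by rw [map_one, map_one, one_mul]⟩

/-- The `L`-subalgebra spanned by the image of `E`. -/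
def spanAlg (L : Type*) [Field L] [CharZero L] (E : IntermediateField ℚ (LaurentSeries ℚ)) :
    Subalgebra L (LaurentSeries L) where
  carrier := AddSubmonoid.closure (gens L E : Set (LaurentSeries L))
  mul_mem' := fun ha hb => MulMemClass.mul_mem_add_closure ha hb
  add_mem' := fun ha hb => AddSubmonoid.add_mem _ ha hb
  algebraMap_mem' := fun c => AddSubmonoid.subset_closure
    ⟨c, 1, E.one_mem, by rw [map_one, mul_one]⟩

theorem mem_spanAlg {E : IntermediateField ℚ (LaurentSeries ℚ)} {y : LaurentSeries L} :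
    y ∈ spanAlg L E ↔ y ∈ AddSubmonoid.closure (gens L E : Set (LaurentSeries L)) := Iff.rfl

/-- The key property on the `L`-span of the image of a subfield `E`. -/
theorem lam_spanAlg (π : L →ₗ[ℚ] ℚ) (E : IntermediateField ℚ (LaurentSeries ℚ))
    (z : LaurentSeries ℚ) (y : LaurentSeries L) (hy : y ∈ spanAlg L E) :
    lam π y ∈ E ∧ lam π (coeffMap (algebraMap ℚ L) z * y) = z * lam π y := by
  rw [mem_spanAlg] at hy
  induction hy using AddSubmonoid.closure_induction with
  | mem x hx =>
    obtain ⟨c, e, he, rfl⟩ := hx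
    refine ⟨?_, ?_⟩
    · rw [lam_const_mul_coeffMap]
      exact E.mul_mem (E.algebraMap_mem _) he
    · have : coeffMap (algebraMap ℚ L) z *
          (algebraMap L (LaurentSeries L) c * coeffMap (algebraMap ℚ L) e) =
          algebraMap L (LaurentSeries L) c * coeffMap (algebraMap ℚ L) (z * e) := by
        rw [map_mul]; ring
      rw [this, lam_const_mul_coeffMap, lam_const_mul_coeffMap]
      ring
  | zero =>
    refine ⟨?_, ?_⟩
    · rw [lam_zero]; exact E.zero_mem
    · rw [mul_zero, lam_zero, mul_zero]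
  | add x y _ _ hx hy =>
    refine ⟨?_, ?_⟩
    · rw [lam_add]; exact E.add_mem hx.1 hy.1
    · rw [mul_add, lam_add, lam_add, hx.2, hy.2, mul_add]

theorem adjoin_le_spanAlg (S : Set (LaurentSeries ℚ)) :
    Algebra.adjoin L (coeffMap (algebraMap ℚ L) '' S) ≤
      spanAlg L (IntermediateField.adjoin ℚ S) := by
  rw [Algebra.adjoin_le_iff]
  rintro _ ⟨s, hs, rfl⟩
  exact AddSubmonoid.subset_closure
    ⟨1, s, IntermediateField.subset_adjoin ℚ S hs, by rw [map_one, one_mul]⟩

theorem exists_functional_ne_zero (c : L) (hc : c ≠ 0) : ∃ π : L →ₗ[ℚ] ℚ, π c ≠ 0 := by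
  by_contra hcon
  push Not at hcon
  exact hc ((Module.forall_dual_apply_eq_zero_iff ℚ c).mp hcon)

end DescentQ

open DescentQ in
/-- EX-C5, file `Export/DescentQ.lean`: a rational Laurent series lying in `L(S)` lies in `ℚ(S)`. -/
theorem mem_adjoin_of_coeffMap_mem {L : Type*} [Field L] [CharZero L]
    (S : Set (LaurentSeries ℚ)) (z : LaurentSeries ℚ)
    (hz : coeffMap (algebraMap ℚ L) z ∈
      IntermediateField.adjoin L (coeffMap (algebraMap ℚ L) '' S)) :
    z ∈ IntermediateField.adjoin ℚ S := by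
  obtain ⟨r, hr, s, hs, hzrs⟩ := IntermediateField.mem_adjoin_iff_div.mp hz
  have hr' := adjoin_le_spanAlg (L := L) S hr
  have hs' := adjoin_le_spanAlg (L := L) S hs
  by_cases hs0 : s = 0
  · rw [hs0, div_zero] at hzrs
    have : z = 0 := by
      ext k
      have := congrArg (fun x => HahnSeries.coeff x k) hzrs
      simpa [coeffMap_coeff] using this
    rw [this]
    exact (IntermediateField.adjoin ℚ S).zero_mem
  · have hmul : coeffMap (algebraMap ℚ L) z * s = r := by
      rw [hzrs, div_mul_cancel₀ _ hs0]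
    obtain ⟨k, hk⟩ : ∃ k, s.coeff k ≠ 0 := by
      by_contra hcon
      push Not at hcon
      exact hs0 (HahnSeries.ext (funext hcon))
    obtain ⟨π, hπ⟩ := exists_functional_ne_zero (s.coeff k) hk
    have h1 := lam_spanAlg π (IntermediateField.adjoin ℚ S) z s hs'
    have h2 := lam_spanAlg π (IntermediateField.adjoin ℚ S) z r hr'
    have hne : lam π s ≠ 0 := by
      intro h0
      apply hπ
      have := congrArg (fun x => HahnSeries.coeff x k) h0
      simpa using this
    have hz' : z = lam π r / lam π s := by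
      rw [eq_div_iff hne, ← h1.2, hmul]
    rw [hz']
    exact (IntermediateField.adjoin ℚ S).div_mem h2.1 h1.1

/-- EX-C5 (b): the image of `ℚ(S)` lies in `L(S)`. -/
theorem coeffMap_mem_adjoin {L : Type*} [Field L] [CharZero L]
    (S : Set (LaurentSeries ℚ)) (z : LaurentSeries ℚ) (hz : z ∈ IntermediateField.adjoin ℚ S) :
    coeffMap (algebraMap ℚ L) z ∈
      IntermediateField.adjoin L (coeffMap (algebraMap ℚ L) '' S) := by
  let ψ : LaurentSeries ℚ →+* LaurentSeries L := coeffMap (algebraMap ℚ L)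
  let T : Subfield (LaurentSeries ℚ) :=
    (IntermediateField.adjoin L (coeffMap (algebraMap ℚ L) '' S)).toSubfield.comap ψ
  have hle : IntermediateField.adjoin ℚ S ≤
      T.toIntermediateField (fun r => by
        rw [eq_ratCast]
        exact SubfieldClass.ratCast_mem T r) := by
    rw [IntermediateField.adjoin_le_iff]
    intro y hy
    change ψ y ∈ IntermediateField.adjoin L (coeffMap (algebraMap ℚ L) '' S)
    exact IntermediateField.subset_adjoin _ _ ⟨y, hy, rfl⟩
  exact hle hz

/-- EX-C5 (c) -/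
theorem image_divisorExpansions {L : Type*} [Field L] [CharZero L] (N : ℕ) :
    coeffMap (algebraMap ℚ L) '' (divisorExpansionsC ℚ N) = divisorExpansionsC L N := by
  ext x
  constructor
  · rintro ⟨_, ⟨d, hd, hdN, rfl⟩, rfl⟩
    refine ⟨d, hd, hdN, ?_⟩
    rw [coeffMap_qExpand, coeffMap_jqModC]
  · rintro ⟨d, hd, hdN, rfl⟩
    refine ⟨qExpand ℚ d (jqModC ℚ), ⟨d, hd, hdN, rfl⟩, ?_⟩
    rw [coeffMap_qExpand, coeffMap_jqModC]

end Fermat.Agent.S28.Export

end
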