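import Fermat.Agent.S28.Export.Unique
import Fermat.Agent.S28.Export.DescentQ
import Fermat.Agent.S24.Export.Ramification

/-!
# S28 export, part VII: `u ∈ F_N`, hence `K(j,u) = F_N`

`F_N ⊆ ℚ̄(j,u)`, both of degree `[SL₂(ℤ) : Γ₀(N)]` over `ℚ̄(j)` (S24 for `F_N`).
-/

set_option autoImplicit false
set_option linter.unusedSectionVars false

noncomputable section

open ModularCurve Polynomial
open Fermat.Agent.S18.Vert (chiS uS zlTo chiS_monic chiS_natDegree chiS_eval irreducible_chiS
  chiS_comp uS_comp isUnit_derivative)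

namespace Fermat.Agent.S28.Export

section General

variable (L : Type*) [Field L] [CharZero L] {N ℓ : ℕ} [Fact ℓ.Prime] (D : UData N ℓ)

/-- `ℤ_(ℓ) → L` -/
def zlToField : Zl ℓ →+* L := (algebraMap ℚ L).comp (GaloisRep.ratLocalizedAt ℓ).subtype

/-- `u` with coefficients in `L` -/
def uC : LaurentSeries L := coeffMap (algebraMap ℚ L) D.u

theorem uC_eq : uC L D = uS D (zlToField L) := by
  rw [uC, uS, ← D.toQ_uZ, toQ, coeffMap_coeffMap]
  rfl

/-- `L(j,u)` -/
def bigC : IntermediateField L (LaurentSeries L) :=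
  IntermediateField.adjoin L {jqModC L, uC L D}

theorem relfinrank_bigC : (jK L).relfinrank (bigC L D) = D.n := by
  have h := chiS_eval D (zlToField (ℓ := ℓ) L)
  rw [← uC_eq] at h
  have := relfinrank_adjoin_pair (jqModC L) (uC L D) (evalJ_injective L) (chiS D (zlToField L))
    (irreducible_chiS D _) (chiS_monic D _) h
  rwa [chiS_natDegree] at this

theorem full_eq_adjoin_image :
    modularFunctionFieldFullC L N =
      IntermediateField.adjoin L (coeffMap (algebraMap ℚ L) '' (divisorExpansionsC ℚ N)) := by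
  rw [image_divisorExpansions]; rfl

theorem full_le_bigC : modularFunctionFieldFullC L N ≤ bigC L D := by
  rw [modularFunctionFieldFullC, IntermediateField.adjoin_le_iff]
  rintro x ⟨d, hd, hdN, rfl⟩
  have h1 := coeffMap_mem_adjoin (L := L) {jq, D.u} _ (D.gen d hdN)
  have h2 : coeffMap (algebraMap ℚ L) (qExpand ℚ d jq) = qExpand L d (jqModC L) := by
    rw [coeffMap_qExpand]
    congr 1
    exact coeffMap_jqModC (R := ℚ) _
  rw [h2, Set.image_pair] at h1
  have h3 : coeffMap (algebraMap ℚ L) jq = jqModC L := coeffMap_jqModC (R := ℚ) _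
  rw [h3] at h1
  exact h1

theorem jK_le_full : jK L ≤ modularFunctionFieldFullC L N := by
  rw [IntermediateField.adjoin_le_iff]
  rintro x rfl
  exact jqModC_mem_full L N

/-- If `u ∈ F_N` over `ℚ` then `L(j,u) = F_N` over `L`. -/
theorem bigC_eq_full (hu : D.u ∈ modularFunctionFieldFull N) :
    bigC L D = modularFunctionFieldFullC L N := by
  apply le_antisymm _ (full_le_bigC L D)
  rw [bigC, IntermediateField.adjoin_le_iff]
  rintro x (rfl | rfl)
  · exact jqModC_mem_full L N
  · rw [full_eq_adjoin_image]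
    exact coeffMap_mem_adjoin _ _ hu

end General

section Bar

open Fermat.Agent.S24 (Kbar FN jF Jser)

variable (N : ℕ) [NeZero N]

theorem bar_eq_full : modularFunctionFieldBar N = modularFunctionFieldFullC Kbar N := by
  have hhom : ∀ x : LaurentSeries ℚ, coeffEmb Kbar x = coeffMap (algebraMap ℚ Kbar) x := fun x =>
    coeffMap_congr (Subsingleton.elim _ _) x
  apply le_antisymm
  · rw [modularFunctionFieldBar, laurentBaseChange, IntermediateField.adjoin_le_iff]
    rintro y ⟨x, hx, rfl⟩
    rw [SetLike.mem_coe, full_eq_adjoin_image, hhom]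
    exact coeffMap_mem_adjoin _ _ hx
  · rw [full_eq_adjoin_image, IntermediateField.adjoin_le_iff]
    rintro y ⟨x, hx, rfl⟩
    rw [← hhom]
    exact coeffEmb_mem_laurentBaseChange Kbar (IntermediateField.subset_adjoin ℚ _ hx)

theorem relfinrank_full_bar :
    (jK Kbar).relfinrank (modularFunctionFieldFullC Kbar N) =
      (CongruenceSubgroup.Gamma0 N).index := by
  rw [← Fermat.Agent.S24.Export.finrank_eq_index N, ← IntermediateField.relfinrank_top_right,
    ← IntermediateField.relfinrank_map_map _ _ (modularFunctionFieldBar N).val,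
    IntermediateField.adjoin_map, ← AlgHom.fieldRange_eq_map, IntermediateField.fieldRange_val,
    Set.image_singleton]
  have e : (modularFunctionFieldBar N).val (jF N) = jqModC Kbar := by
    change coeffEmb Kbar (qExpand ℚ 1 jq) = jqModC Kbar
    rw [qExpand_one_apply]
    exact coeffMap_jqModC (R := ℚ) _
  rw [e, ← bar_eq_full]

variable {N} {ℓ : ℕ} [Fact ℓ.Prime]

/-- **`u ∈ F_N`.** -/
theorem u_mem_full (D : UData N ℓ) (hn : D.n = (CongruenceSubgroup.Gamma0 N).index) :
    D.u ∈ modularFunctionFieldFull N := by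
  have h1 := IntermediateField.relfinrank_mul_relfinrank (jK_le_full Kbar (N := N))
    (full_le_bigC Kbar D)
  rw [relfinrank_full_bar, relfinrank_bigC, hn] at h1
  have h0 : (CongruenceSubgroup.Gamma0 N).index ≠ 0 := Subgroup.FiniteIndex.index_ne_zero
  have h2 : (modularFunctionFieldFullC Kbar N).relfinrank (bigC Kbar D) = 1 :=
    Nat.eq_of_mul_eq_mul_left (Nat.pos_of_ne_zero h0) (by rw [h1, mul_one])
  rw [IntermediateField.relfinrank_eq_one_iff] at h2
  have h3 : uC Kbar D ∈ modularFunctionFieldFullC Kbar N :=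
    h2 (IntermediateField.subset_adjoin _ _ (by simp))
  rw [full_eq_adjoin_image] at h3
  exact mem_adjoin_of_coeffMap_mem _ _ h3

end Bar

end Fermat.Agent.S28.Export

end
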