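import Fermat.Agent.S28.Export.Red

/-!
# S28 export, part II: Gauss-good subfields of `K((q))` and their Gauss valuation ring

`E ⊆ K((q))` is *good* if every nonzero `f ∈ E` can be scaled by a constant `c ∈ Kˣ` such that
`c • f` has a nonzero reduction.  Then `{f ∈ E | f reduces}` is a valuation subring of `E` with the
same value group as `O`.
-/

set_option autoImplicit false

noncomputable section

open ModularCurve

namespace Fermat.Agent.S28.Export

variable {K : Type*} [Field K] (O : ValuationSubring K)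

/-- Every nonzero element of `E` is a constant times an element with nonzero reduction. -/
def IsGood (E : IntermediateField K (LaurentSeries K)) : Prop :=
  ∀ f ∈ E, f ≠ 0 → ∃ c : K, c ≠ 0 ∧ ∃ g, g ≠ 0 ∧ Red O (c • f) g

variable {O}

theorem IsGood.mono {E E' : IntermediateField K (LaurentSeries K)} (h : IsGood O E')
    (hle : E ≤ E') : IsGood O E := fun f hf hf0 => h f (hle hf) hf0

theorem red_or_red_inv {f : LaurentSeries K} {c : K} (hc : c ≠ 0)
    {g : LaurentSeries (IsLocalRing.ResidueField O)} (hg : g ≠ 0) (h : Red O (c • f) g) :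
    (∃ g', Red O f g') ∨ ∃ g', Red O f⁻¹ g' := by
  rcases O.mem_or_inv_mem c with hcO | hcO
  · right
    have h1 := (h.inv hg).smul ⟨c, hcO⟩
    refine ⟨IsLocalRing.residue O ⟨c, hcO⟩ • g⁻¹, ?_⟩
    have this : (HahnSeries.C c : LaurentSeries K) ≠ 0 := by
      intro h0
      apply hc
      have := congrArg (fun x => HahnSeries.coeff x 0) h0
      simpa using this
    have e : f⁻¹ = c • (c • f)⁻¹ := by
      rw [smul_eq_C_mul, smul_eq_C_mul, mul_inv, ← mul_assoc, mul_inv_cancel₀ this, one_mul]
    rw [e]
    exact h1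
  · left
    have h1 := h.smul ⟨c⁻¹, hcO⟩
    refine ⟨IsLocalRing.residue O ⟨c⁻¹, hcO⟩ • g, ?_⟩
    have e : f = c⁻¹ • c • f := by
      rw [smul_smul, inv_mul_cancel₀ hc, one_smul]
    rw [e]
    exact h1

variable (O) in
/-- The Gauss valuation ring of a good field. -/
def gaussRing (E : IntermediateField K (LaurentSeries K)) (h : IsGood O E) :
    ValuationSubring E where
  carrier := {f | ∃ g, Red O (f : LaurentSeries K) g}
  mul_mem' := by
    rintro a b ⟨g, hg⟩ ⟨g', hg'⟩
    exact ⟨_, hg.mul hg'⟩
  one_mem' := ⟨1, red_one⟩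
  add_mem' := by
    rintro a b ⟨g, hg⟩ ⟨g', hg'⟩
    exact ⟨_, hg.add hg'⟩
  zero_mem' := ⟨0, red_zero⟩
  neg_mem' := by
    rintro a ⟨g, hg⟩
    exact ⟨_, hg.neg⟩
  mem_or_inv_mem' := by
    intro f
    by_cases hf : f = 0
    · left; rw [hf]; exact ⟨0, red_zero⟩
    · obtain ⟨c, hc, g, hg, hr⟩ := h f f.2 (fun h0 => hf (Subtype.ext h0))
      exact red_or_red_inv hc hg hr

variable {E : IntermediateField K (LaurentSeries K)} (h : IsGood O E)

theorem mem_gaussRing_iff (f : E) :
    f ∈ gaussRing O E h ↔ ∃ g, Red O (f : LaurentSeries K) g := Iff.rfl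

/-- The reduction of an element of the Gauss ring. -/
def redFun (f : gaussRing O E h) : LaurentSeries (IsLocalRing.ResidueField O) :=
  Classical.choose f.2

theorem red_redFun (f : gaussRing O E h) :
    Red O ((f : E) : LaurentSeries K) (redFun h f) := Classical.choose_spec f.2

theorem redFun_eq {f : gaussRing O E h} {g : LaurentSeries (IsLocalRing.ResidueField O)}
    (hg : Red O ((f : E) : LaurentSeries K) g) : redFun h f = g := (red_redFun h f).unique hg

/-- The reduction map as a ring homomorphism. -/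
def redHom : gaussRing O E h →+* LaurentSeries (IsLocalRing.ResidueField O) where
  toFun := redFun h
  map_one' := redFun_eq h red_one
  map_mul' a b := redFun_eq h ((red_redFun h a).mul (red_redFun h b))
  map_zero' := redFun_eq h red_zero
  map_add' a b := redFun_eq h ((red_redFun h a).add (red_redFun h b))

theorem red_redHom (f : gaussRing O E h) :
    Red O ((f : E) : LaurentSeries K) (redHom h f) := red_redFun h f

theorem redHom_eq {f : gaussRing O E h} {g : LaurentSeries (IsLocalRing.ResidueField O)}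
    (hg : Red O ((f : E) : LaurentSeries K) g) : redHom h f = g := redFun_eq h hg

theorem isUnit_iff_redHom_ne_zero (f : gaussRing O E h) : IsUnit f ↔ redHom h f ≠ 0 := by
  constructor
  · intro hu
    exact (hu.map (redHom h)).ne_zero
  · intro hne
    have hr := (red_redHom h f).inv hne
    refine IsUnit.of_mul_eq_one (⟨(f : E)⁻¹, ⟨_, by simpa using hr⟩⟩ : gaussRing O E h) ?_
    have hf0 : (f : E) ≠ 0 := by
      intro h0
      apply (red_redHom h f).ne_zero hne
      rw [h0]; rfl
    ext1
    exact mul_inv_cancel₀ hf0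

theorem mem_maximalIdeal_iff (f : gaussRing O E h) :
    f ∈ IsLocalRing.maximalIdeal (gaussRing O E h) ↔ redHom h f = 0 := by
  rw [IsLocalRing.mem_maximalIdeal, mem_nonunits_iff, isUnit_iff_redHom_ne_zero, not_not]

theorem ker_redHom : RingHom.ker (redHom h) = IsLocalRing.maximalIdeal (gaussRing O E h) := by
  ext f
  rw [RingHom.mem_ker, mem_maximalIdeal_iff]

theorem mem_nonunits_gaussRing_iff (f : E) :
    f ∈ (gaussRing O E h).nonunits ↔ Red O (f : LaurentSeries K) 0 := by
  rw [ValuationSubring.mem_nonunits_iff_exists_mem_maximalIdeal]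
  constructor
  · rintro ⟨hf, hm⟩
    rw [mem_maximalIdeal_iff] at hm
    have := red_redHom h ⟨f, hf⟩
    rwa [hm] at this
  · intro hr
    refine ⟨⟨0, hr⟩, ?_⟩
    rw [mem_maximalIdeal_iff]
    exact redHom_eq h hr

theorem coe_algebraMap (c : K) :
    ((algebraMap K E c : E) : LaurentSeries K) = c • (1 : LaurentSeries K) := by
  rw [smul_eq_C_mul, mul_one]
  exact algebraMap_laurentSeries_eq_single K c

theorem algebraMap_mem_gaussRing_iff (c : K) : algebraMap K E c ∈ gaussRing O E h ↔ c ∈ O := by
  rw [mem_gaussRing_iff, coe_algebraMap]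
  constructor
  · rintro ⟨g, hg⟩
    exact mem_of_red_smul red_one one_ne_zero hg
  · intro hc
    exact ⟨_, red_one.smul ⟨c, hc⟩⟩

theorem algebraMap_mem_nonunits_iff (c : K) :
    algebraMap K E c ∈ (gaussRing O E h).nonunits ↔ c ∈ O.nonunits := by
  rw [mem_nonunits_gaussRing_iff, coe_algebraMap]
  constructor
  · intro hr
    have hc : c ∈ O := mem_of_red_smul red_one one_ne_zero hr
    have h1 := (red_one (O := O)).smul ⟨c, hc⟩
    have h2 := h1.unique hr
    rw [ValuationSubring.mem_nonunits_iff_exists_mem_maximalIdeal]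
    refine ⟨hc, ?_⟩
    rw [← IsLocalRing.residue_eq_zero_iff]
    have := congrArg (fun x => HahnSeries.coeff x 0) h2
    simpa using this
  · intro hc
    exact red_one.smul_of_mem_nonunits hc

/-- `e = 1`: every nonzero element of `E` is a constant times a unit of the Gauss ring. -/
theorem exists_smul_isUnit (f : E) (hf : f ≠ 0) :
    ∃ c : K, c ≠ 0 ∧ ∃ v : (gaussRing O E h)ˣ, f = algebraMap K E c * ((v : gaussRing O E h) : E) := by
  obtain ⟨c, hc, g, hg, hr⟩ := h f f.2 (fun h0 => hf (Subtype.ext h0))
  have hr' : Red O (((algebraMap K E c * f : E)) : LaurentSeries K) g := by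
    have e : (((algebraMap K E c * f : E)) : LaurentSeries K) = c • (f : LaurentSeries K) := by
      rw [smul_eq_C_mul]
      change algebraMap K (LaurentSeries K) c * (f : LaurentSeries K) = _
      rw [algebraMap_laurentSeries_eq_single]
      rfl
    rw [e]; exact hr
  have hmem : algebraMap K E c * f ∈ gaussRing O E h := ⟨g, hr'⟩
  have hu : IsUnit (⟨algebraMap K E c * f, hmem⟩ : gaussRing O E h) := by
    rw [isUnit_iff_redHom_ne_zero, redHom_eq h (f := ⟨algebraMap K E c * f, hmem⟩) hr']
    exact hg
  obtain ⟨v, hv⟩ := hu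
  refine ⟨c⁻¹, inv_ne_zero hc, v, ?_⟩
  rw [hv, ← mul_assoc, ← map_mul, inv_mul_cancel₀ hc, map_one, one_mul]

/-- Uniqueness, abstract part: a valuation subring of `E` containing the Gauss ring in which the
non-units of `O` remain non-units is the Gauss ring. -/
theorem eq_gaussRing_of_le (V : ValuationSubring E) (hle : gaussRing O E h ≤ V)
    (hm : ∀ c ∈ O.nonunits, algebraMap K E c ∈ V.nonunits) : V = gaussRing O E h := by
  refine le_antisymm ?_ hle
  intro f hfV
  by_contra hf
  have hf0 : f ≠ 0 := by rintro rfl; exact hf (gaussRing O E h).zero_mem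
  obtain ⟨c, hc, v, hv⟩ := exists_smul_isUnit h f hf0
  have hcO : c ∉ O := by
    intro hcO
    apply hf
    rw [hv]
    exact mul_mem ((algebraMap_mem_gaussRing_iff h c).2 hcO) (v : gaussRing O E h).2
  -- `c⁻¹` is a non-unit of `O`
  have hinv : c⁻¹ ∈ O.nonunits := by
    rw [← algebraMap_mem_nonunits_iff h, mem_nonunits_gaussRing_iff, coe_algebraMap]
    have hmem : c⁻¹ ∈ O := (O.mem_or_inv_mem c).resolve_left hcO
    have h1 := (red_one (O := O)).smul ⟨c⁻¹, hmem⟩
    by_cases h0 : IsLocalRing.residue O ⟨c⁻¹, hmem⟩ = 0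
    · rw [h0, zero_smul] at h1; exact h1
    · exfalso
      apply hcO
      have h2 := h1.inv (by
        intro hz
        apply h0
        have := congrArg (fun x => HahnSeries.coeff x 0) hz
        simpa using this)
      have h3 : ((c⁻¹ : K) • (1 : LaurentSeries K))⁻¹ = c • (1 : LaurentSeries K) := by
        rw [smul_eq_C_mul, smul_eq_C_mul, mul_one, mul_one, ← map_inv₀, inv_inv]
      change Red O ((c⁻¹ : K) • (1 : LaurentSeries K))⁻¹ _ at h2
      rw [h3] at h2
      exact mem_of_red_smul red_one one_ne_zero h2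
  have h1 := hm _ hinv
  -- but `c⁻¹ = v * f⁻¹` ... `c = f * v⁻¹ ∈ V`
  have hcV : algebraMap K E c ∈ V := by
    have : algebraMap K E c = f * (((v⁻¹ : (gaussRing O E h)ˣ) : gaussRing O E h) : E) := by
      rw [hv, mul_assoc]
      have : ((v : gaussRing O E h) : E) * (((v⁻¹ : (gaussRing O E h)ˣ) : gaussRing O E h) : E) = 1 := by
        have := congrArg (Subtype.val) (Units.mul_inv v)
        exact this
      rw [this, mul_one]
    rw [this]
    exact mul_mem hfV (hle (Subtype.mem _))
  rw [ValuationSubring.mem_nonunits_iff_exists_mem_maximalIdeal] at h1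
  obtain ⟨h2, h3⟩ := h1
  apply (IsLocalRing.mem_maximalIdeal _).1 h3
  refine IsUnit.of_mul_eq_one (⟨algebraMap K E c, hcV⟩ : V) ?_
  ext1
  change algebraMap K E c⁻¹ * algebraMap K E c = 1
  rw [← map_mul, inv_mul_cancel₀ hc, map_one]

end Fermat.Agent.S28.Export

end
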