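import Fermat.Agent.S28.Analytic.Assembly
import Fermat.Agent.S28.Analytic.GenInterp

/-!
# S28/Export, EX-C1: a `UData` with `n = Nat.card (Q0 N)` (and `u = uL E ℚ`)
-/

set_option autoImplicit false

noncomputable section

open ModularCurve Polynomial

namespace Fermat.Agent.S28.Export

/-- EX-C1, second version: the `UData` comes from an `EtaData`. -/
theorem exists_UData_card' (N : ℕ) [NeZero N] (ℓ : ℕ) [Fact ℓ.Prime] (hℓN : ¬ ℓ ∣ N) :
    ∃ (E : EtaData N ℓ) (D : UData N ℓ), D.n = Nat.card (Q0 N) ∧ D.u = uL E ℚ ∧ D.w = E.w := by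
  obtain ⟨D⟩ := exists_etaData N ℓ hℓN
  obtain ⟨χC, hshape, hlead, hconstU, heq, hr⟩ := exists_chiC N ℓ D
  set n := Nat.card (Q0 N) with hn_def
  have hw : 1 ≤ D.w := D.hw
  have hn : 1 ≤ n := by
    rcases Nat.eq_zero_or_pos n with h0 | h0
    · have := D.hr
      rw [hr, h0, zero_mul] at this
      omega
    · exact h0
  -- irreducibility over `ℂ`
  have hirr : Irreducible χC := by
    obtain ⟨c, hc, h0⟩ := hshape.const
    exact irreducible_of_weighted χC n D.w hn hw hshape.monic hshape.natDegree_eq hshape.deg_le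
      (lunit_ne_zero' hlead) (by rw [h0]; exact Polynomial.isUnit_C.mpr (isUnit_iff_ne_zero.mpr hc))
  -- descent to `ℚ`
  obtain ⟨χQ, hmap, heqQ⟩ := rational_descent χC hshape.monic hirr (uL D ℚ)
    (by rw [coeffMap_uL]; exact heq)
  have hshapeQ : Shape χQ n D.w := shape_of_map (algebraMap ℚ ℂ) χQ n D.w (by rw [hmap]; exact hshape)
  have hcoeff : ∀ i j, (((χQ.coeff i).coeff j : ℚ) : ℂ) = (χC.coeff i).coeff j := by
    intro i j
    rw [← hmap, Polynomial.coeff_map, Polynomial.coe_mapRingHom, Polynomial.coeff_map]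
    rfl
  have hleadQ := lunit_mem_and_inv_mem (ℓ := ℓ) (x := (χQ.coeff 1).coeff ((n - 1) * D.w))
    (by rw [hcoeff]; exact hlead)
  have hconstQ := lunit_mem_and_inv_mem (ℓ := ℓ) (x := (χQ.coeff 0).coeff 0)
    (by rw [hcoeff]; exact hconstU)
  -- order of `u`
  have hrw : (D.r : ℤ) - (D.w : ℤ) = (((n - 1) * D.w : ℕ) : ℤ) := by
    rw [hr]
    obtain ⟨n', hn'⟩ : ∃ n', n = n' + 1 := ⟨n - 1, by omega⟩
    rw [hn', Nat.add_sub_cancel]
    push_cast
    ring
  have hord : ∀ k : ℤ, k < (((n - 1) * D.w : ℕ) : ℤ) → (uL D ℚ).coeff k = 0 := by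
    rw [← hrw]; exact ordGE_uL D ℚ
  have hlead1 : (uL D ℚ).coeff (((n - 1) * D.w : ℕ) : ℤ) = 1 := by
    rw [← hrw]; exact coeff_uL D ℚ
  -- integrality
  obtain ⟨χ, hχ⟩ := intShape ℓ χQ n D.w hn hw hshapeQ hconstQ.1 (uL D ℚ) (isInt_uL D) hord hlead1
    heqQ
  have hι : Function.Injective (GaloisRep.ratLocalizedAt ℓ).subtype := Subtype.val_injective
  have hI : Function.Injective (Polynomial.mapRingHom (GaloisRep.ratLocalizedAt ℓ).subtype) :=
    Polynomial.map_injective _ hι
  refine ⟨D, {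
    n := n
    w := D.w
    hn := hn
    hw := hw
    u := uL D ℚ
    χ := χ
    monic := Polynomial.monic_of_injective hI (by rw [hχ]; exact hshapeQ.monic)
    natDegree_eq := by
      rw [← hshapeQ.natDegree_eq, ← hχ, Polynomial.natDegree_map_eq_of_injective hI]
    eval_eq_zero := by
      rw [evalAt_eq_comp, ← Polynomial.eval₂_map, hχ]; exact heqQ
    deg_le := fun i hi => by
      have := hshapeQ.deg_le i hi
      rwa [← hχ, Polynomial.coeff_map, Polynomial.coe_mapRingHom,
        Polynomial.natDegree_map_eq_of_injective hι] at this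
    lead_unit := by
      have hval : (((χ.coeff 1).coeff ((n - 1) * D.w) : Zl ℓ) : ℚ) =
          (χQ.coeff 1).coeff ((n - 1) * D.w) := by
        rw [← hχ, Polynomial.coeff_map, Polynomial.coe_mapRingHom, Polynomial.coeff_map]
        rfl
      refine IsUnit.of_mul_eq_one ⟨_, hleadQ.2⟩ (Subtype.ext ?_)
      rw [Subring.coe_mul, hval, Subring.coe_one]
      refine mul_inv_cancel₀ ?_
      intro h0
      have := (lunit_ne_zero' hlead)
      rw [← hcoeff, h0] at this
      exact this (by simp)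
    u_int := isInt_uL D
    u_order := hord
    u_lead := hlead1
    gen := fun d _ hd => GenInterp.generation N ℓ D d hd }, rfl, rfl, rfl⟩

/-- EX-C1, file `Export/Card.lean`. -/
theorem exists_UData_card (N : ℕ) [NeZero N] (ℓ : ℕ) [Fact ℓ.Prime] (hℓN : ¬ ℓ ∣ N) :
    ∃ D : UData N ℓ, D.n = Nat.card (Q0 N) := by
  obtain ⟨_, D, h, -, -⟩ := exists_UData_card' N ℓ hℓN
  exact ⟨D, h⟩

end Fermat.Agent.S28.Export

end
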