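import Fermat.Agent.S28.Analytic.Shape

/-!
# S28/Export, node EX-C2: the coset space `Q0 N` has `[SL₂(ℤ) : Γ₀(N)]` elements
-/

set_option autoImplicit false

noncomputable section

open ModularCurve Polynomial
open scoped MatrixGroups

namespace Fermat.Agent.S28.Export

/-- EX-C2, file `Export/Index.lean`. -/
theorem card_Q0 (N : ℕ) [NeZero N] : Nat.card (Q0 N) = (CongruenceSubgroup.Gamma0 N).index := by
  have h1 : Nat.card (Q0 N) = (G0 N).relIndex 𝒮ℒ := rfl
  rw [h1]
  have h2 : (𝒮ℒ : Subgroup (GL (Fin 2) ℝ)) =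
      Subgroup.map (Matrix.SpecialLinearGroup.mapGL ℝ) (⊤ : Subgroup SL(2, ℤ)) :=
    MonoidHom.range_eq_map _
  rw [h2]
  show (Subgroup.map (Matrix.SpecialLinearGroup.mapGL ℝ) (CongruenceSubgroup.Gamma0 N)).relIndex
    (Subgroup.map (Matrix.SpecialLinearGroup.mapGL ℝ) (⊤ : Subgroup SL(2, ℤ))) = _
  rw [Subgroup.relIndex_map_map_of_injective _ _ Matrix.SpecialLinearGroup.mapGL_injective,
    Subgroup.relIndex_top_right]

end Fermat.Agent.S28.Export

end
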