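import Fermat.Agent.S28.Export.UMem
import Fermat.Agent.S28.Export.Card
import Fermat.Agent.S28.Export.Index

/-!
# S28 export, part VIII: a `UData` with `u ∈ F_N`, so that `K(j,u) = F_N`
-/

set_option autoImplicit false
set_option linter.unusedSectionVars false

noncomputable section

open ModularCurve Polynomial

namespace Fermat.Agent.S28.Export

/-- There is a `UData` of degree `[SL₂(ℤ) : Γ₀(N)]` with `u ∈ F_N`. -/
theorem exists_good_UData (N : ℕ) [NeZero N] (ℓ : ℕ) [Fact ℓ.Prime] (hℓN : ¬ ℓ ∣ N) :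
    ∃ D : UData N ℓ, D.n = (CongruenceSubgroup.Gamma0 N).index ∧
      D.u ∈ modularFunctionFieldFull N := by
  obtain ⟨D, hD⟩ := exists_UData_card N ℓ hℓN
  rw [card_Q0] at hD
  exact ⟨D, hD, u_mem_full D hD⟩

variable {K : Type*} [Field K] [CharZero K] (O : ValuationSubring K) {N ℓ : ℕ} [Fact ℓ.Prime]
  (D : UData N ℓ) (hℓ : O.LiesOverPrime ℓ)

theorem bigK_eq_bigC : bigK O D hℓ = bigC K D := by
  rw [bigK, bigC, uK_eq, uC]

/-- `K(j,u) = F_N` over `K`. -/
theorem bigK_eq_full (hu : D.u ∈ modularFunctionFieldFull N) :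
    bigK O D hℓ = modularFunctionFieldFullC K N := by
  rw [bigK_eq_bigC, bigC_eq_full K D hu]

end Fermat.Agent.S28.Export

end
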