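import Fermat.Agent.S28.Export.Good

/-!
# S28 export, part III: the two extension steps

* transcendental step: `K(t)` is good if the reduction of `t` is transcendental over `k`;
* integral step: `E(u)` is good if `1, ū, …, ū^(n-1)` are independent over the residue field of `E`.
-/

set_option autoImplicit false

noncomputable section

open ModularCurve Polynomial

namespace Fermat.Agent.S28.Export

/-- `P ↦ P(t)`, from `S[Y]` to `S((q))`. -/
def evalT {S : Type*} [CommRing S] (t : LaurentSeries S) : S[X] →+* LaurentSeries S :=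
  Polynomial.eval₂RingHom (HahnSeries.C : S →+* LaurentSeries S) t

theorem evalT_C {S : Type*} [CommRing S] (t : LaurentSeries S) (a : S) :
    evalT t (C a) = HahnSeries.C a := by simp [evalT]

theorem evalT_X {S : Type*} [CommRing S] (t : LaurentSeries S) : evalT t X = t := by simp [evalT]

theorem coeffMap_evalT {S S' : Type*} [CommRing S] [CommRing S'] (f : S →+* S')
    (t : LaurentSeries S) (P : S[X]) :
    coeffMap f (evalT t P) = evalT (coeffMap f t) (P.map f) := by
  rw [evalT, evalT, coe_eval₂RingHom, coe_eval₂RingHom, hom_eval₂, eval₂_map]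
  congr 1
  ext a : 1
  exact coeffMap_single f 0 a

theorem evalT_eq_aeval {K : Type*} [Field K] (t : LaurentSeries K) (P : K[X]) :
    evalT t P = aeval t P := by
  rw [evalT, coe_eval₂RingHom, aeval_def]
  congr 1
  ext a : 1
  exact (algebraMap_laurentSeries_eq_single K a).symm

theorem smul_mul' {R : Type*} [CommRing R] (c : R) (f g : LaurentSeries R) :
    (c • f) * g = c • (f * g) := by
  rw [smul_eq_C_mul, smul_eq_C_mul, mul_assoc]

/-- In a valuation ring, a finite family which is not identically zero has an entry dividing all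
the others. -/
theorem exists_max_val {E : Type*} [Field E] (A : ValuationSubring E) {ι : Type*} (s : Finset ι)
    (a : ι → E) (h : ∃ i ∈ s, a i ≠ 0) : ∃ i₀ ∈ s, a i₀ ≠ 0 ∧ ∀ i ∈ s, a i / a i₀ ∈ A := by
  obtain ⟨i₁, hi₁, h1⟩ := h
  obtain ⟨i₀, hi₀, hmax⟩ := Finset.exists_max_image s (fun i => A.valuation (a i)) ⟨i₁, hi₁⟩
  have h0 : a i₀ ≠ 0 := by
    intro h0
    have := hmax i₁ hi₁
    simp only [h0, map_zero] at this
    exact h1 ((map_eq_zero _).1 (le_antisymm this zero_le))
  refine ⟨i₀, hi₀, h0, fun i hi => ?_⟩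
  rw [← A.valuation_le_one_iff, map_div₀]
  exact div_le_one_of_le₀ (hmax i hi) zero_le

variable {K : Type*} [Field K] {O : ValuationSubring K}

/-- Every nonzero polynomial over `K` is a constant times a polynomial over `O` with nonzero
reduction. -/
theorem exists_primitive (r : K[X]) (hr : r ≠ 0) :
    ∃ (c : K) (r₀ : O[X]), c ≠ 0 ∧ r = C c * r₀.map O.subtype ∧
      r₀.map (IsLocalRing.residue O) ≠ 0 := by
  obtain ⟨i₀, -, h0, hall⟩ := exists_max_val O r.support r.coeff
    ⟨r.natDegree, natDegree_mem_support_of_nonzero hr, leadingCoeff_ne_zero.2 hr⟩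
  have hl : C (r.coeff i₀)⁻¹ * r ∈ lifts O.subtype := by
    rw [lifts_iff_coeff_lifts]
    intro n
    rw [coeff_C_mul]
    by_cases hn : n ∈ r.support
    · exact ⟨⟨_, hall n hn⟩, by simp [div_eq_mul_inv, mul_comm]⟩
    · rw [notMem_support_iff.1 hn, mul_zero]; exact ⟨0, map_zero _⟩
  obtain ⟨r₀, hr₀⟩ := hl
  refine ⟨r.coeff i₀, r₀, h0, ?_, ?_⟩
  · have : r₀.map O.subtype = C (r.coeff i₀)⁻¹ * r := hr₀
    rw [this, ← mul_assoc, ← C_mul, mul_inv_cancel₀ h0, C_1, one_mul]
  · intro hz
    have h1 : r₀.coeff i₀ = 1 := by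
      apply Subtype.ext
      have := congrArg (fun p => p.coeff i₀) (show r₀.map O.subtype = C (r.coeff i₀)⁻¹ * r from hr₀)
      simp only [coeff_map, coeff_C_mul] at this
      rw [inv_mul_cancel₀ h0] at this
      exact this
    have := congrArg (fun p => p.coeff i₀) hz
    simp only [coeff_map, h1, map_one, coeff_zero] at this
    exact one_ne_zero this

theorem red_evalT (t : LaurentSeries O) (P : O[X]) :
    Red O (iota O (evalT t P)) (evalT (rho O t) (P.map (IsLocalRing.residue O))) := by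
  have := red_iota (evalT t P)
  rwa [coeffMap_evalT (IsLocalRing.residue O)] at this

theorem iota_evalT (t : LaurentSeries O) (P : O[X]) :
    iota O (evalT t P) = evalT (iota O t) (P.map O.subtype) := coeffMap_evalT _ _ _

section Transcendental

variable (t : LaurentSeries O) (ht : Function.Injective (evalT (rho O t)))

include ht

theorem evalT_rho_ne_zero {P : O[X]} (hP : P.map (IsLocalRing.residue O) ≠ 0) :
    evalT (rho O t) (P.map (IsLocalRing.residue O)) ≠ 0 := by
  intro h
  exact hP (ht (by rw [h, map_zero]))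

/-- Normal form of the elements of `K(t)`. -/
theorem exists_normal_simple (f : LaurentSeries K)
    (hf : f ∈ IntermediateField.adjoin K {iota O t}) :
    f = 0 ∨ ∃ (c : K) (r s : O[X]), c ≠ 0 ∧ r.map (IsLocalRing.residue O) ≠ 0 ∧
      s.map (IsLocalRing.residue O) ≠ 0 ∧ f * iota O (evalT t s) = c • iota O (evalT t r) := by
  rw [IntermediateField.mem_adjoin_simple_iff] at hf
  obtain ⟨r', s', rfl⟩ := hf
  by_cases hr : r' = 0
  · left; rw [hr, map_zero, zero_div]
  by_cases hs : s' = 0
  · left; rw [hs, map_zero, div_zero]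
  right
  obtain ⟨cr, r, hcr, hr', hr0⟩ := exists_primitive (O := O) r' hr
  obtain ⟨cs, s, hcs, hs', hs0⟩ := exists_primitive (O := O) s' hs
  refine ⟨cr / cs, r, s, div_ne_zero hcr hcs, hr0, hs0, ?_⟩
  have hsne : iota O (evalT t s) ≠ 0 := (red_evalT t s).ne_zero (evalT_rho_ne_zero t ht hs0)
  have hC : (HahnSeries.C cs : LaurentSeries K) ≠ 0 := by
    intro h0
    apply hcs
    have := congrArg (fun x => HahnSeries.coeff x 0) h0
    simpa using this
  rw [← evalT_eq_aeval, ← evalT_eq_aeval, hr', hs', map_mul, map_mul, evalT_C, evalT_C,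
    ← iota_evalT, ← iota_evalT, smul_eq_C_mul, map_div₀]
  field_simp

theorem red_of_normal {f : LaurentSeries K} {c : K} {r s : O[X]} (hc : c ≠ 0)
    (hs : s.map (IsLocalRing.residue O) ≠ 0)
    (h : f * iota O (evalT t s) = c • iota O (evalT t r)) :
    Red O (c⁻¹ • f) (evalT (rho O t) (r.map (IsLocalRing.residue O)) /
      evalT (rho O t) (s.map (IsLocalRing.residue O))) := by
  have hsne : iota O (evalT t s) ≠ 0 := (red_evalT t s).ne_zero (evalT_rho_ne_zero t ht hs)
  have e : c⁻¹ • f = iota O (evalT t r) / iota O (evalT t s) := by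
    rw [eq_div_iff hsne, smul_mul', h, smul_smul, inv_mul_cancel₀ hc, one_smul]
  rw [e]
  exact (red_evalT t r).div (red_evalT t s) (evalT_rho_ne_zero t ht hs)

/-- **Transcendental step.** -/
theorem isGood_adjoin_simple : IsGood O (IntermediateField.adjoin K {iota O t}) := by
  intro f hf hf0
  rcases exists_normal_simple t ht f hf with h0 | ⟨c, r, s, hc, hr, hs, h⟩
  · exact absurd h0 hf0
  · exact ⟨c⁻¹, inv_ne_zero hc, _, div_ne_zero (evalT_rho_ne_zero t ht hr)
      (evalT_rho_ne_zero t ht hs), red_of_normal t ht hc hs h⟩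

/-- The Gauss ring of `K(t)` is the localisation of `O[t]` at the polynomials with nonzero
reduction. -/
theorem exists_frac_of_red {f : LaurentSeries K}
    (hf : f ∈ IntermediateField.adjoin K {iota O t})
    {g : LaurentSeries (IsLocalRing.ResidueField O)} (hg : Red O f g) :
    ∃ r s : O[X], s.map (IsLocalRing.residue O) ≠ 0 ∧
      f * iota O (evalT t s) = iota O (evalT t r) ∧
      g * evalT (rho O t) (s.map (IsLocalRing.residue O)) =
        evalT (rho O t) (r.map (IsLocalRing.residue O)) := by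
  rcases exists_normal_simple t ht f hf with h0 | ⟨c, r, s, hc, hr, hs, h⟩
  · subst h0
    refine ⟨0, 1, by simp, by simp, ?_⟩
    rw [hg.unique red_zero]; simp
  · have h1 := red_of_normal t ht hc hs h
    have hne := div_ne_zero (evalT_rho_ne_zero t ht hr) (evalT_rho_ne_zero t ht hs)
    have hcO : c ∈ O := by
      refine mem_of_red_smul h1 hne (c := c) (g' := g) ?_
      rw [smul_smul, mul_inv_cancel₀ hc, one_smul]; exact hg
    have e : f * iota O (evalT t s) = iota O (evalT t (C ⟨c, hcO⟩ * r)) := by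
      rw [h, map_mul, evalT_C, map_mul, smul_eq_C_mul]
      congr 1
      exact (coeffMap_single O.subtype 0 ⟨c, hcO⟩).symm
    refine ⟨C ⟨c, hcO⟩ * r, s, hs, e, ?_⟩
    have h2 := hg.mul (red_evalT t s)
    rw [e] at h2
    exact h2.unique (red_evalT t _)

end Transcendental

section Integral

variable {E L : IntermediateField K (LaurentSeries K)} (hE : IsGood O E)
  {u : LaurentSeries K} {ub : LaurentSeries (IsLocalRing.ResidueField O)} (hu : Red O u ub) (n : ℕ)
  (hli : ∀ (b : ℕ → LaurentSeries K) (bb : ℕ → LaurentSeries (IsLocalRing.ResidueField O)),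
    (∀ i < n, b i ∈ E) → (∀ i < n, Red O (b i) (bb i)) →
      ∑ i ∈ Finset.range n, bb i * ub ^ i = 0 → ∀ i < n, bb i = 0)

include hE hli in
/-- key computation of the integral step -/
theorem exists_factor (a : ℕ → LaurentSeries K) (ha : ∀ i < n, a i ∈ E)
    (hne : ∃ i < n, a i ≠ 0) :
    ∃ (a₀ : LaurentSeries K) (b : ℕ → LaurentSeries K)
      (bb : ℕ → LaurentSeries (IsLocalRing.ResidueField O)),
      a₀ ∈ E ∧ a₀ ≠ 0 ∧ (∀ i < n, b i ∈ E) ∧ (∀ i < n, a i = a₀ * b i) ∧
      (∀ i < n, Red O (b i) (bb i)) ∧ ∑ i ∈ Finset.range n, bb i * ub ^ i ≠ 0 := by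
  classical
  let a' : ℕ → E := fun i => if h : i < n then ⟨a i, ha i h⟩ else 0
  have ha' : ∀ i < n, ((a' i : E) : LaurentSeries K) = a i := by
    intro i hi
    simp only [a', dif_pos hi]
  obtain ⟨i₁, hi₁, h1⟩ := hne
  obtain ⟨i₀, hi₀, h0, hall⟩ := exists_max_val (gaussRing O E hE) (Finset.range n) a'
    ⟨i₁, Finset.mem_range.2 hi₁, fun h => h1 (by rw [← ha' i₁ hi₁, h]; rfl)⟩
  rw [Finset.mem_range] at hi₀
  have hred : ∀ i, i < n → ∃ g, Red O (((a' i / a' i₀ : E)) : LaurentSeries K) g :=
    fun i hi => hall i (Finset.mem_range.2 hi)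
  let bb : ℕ → LaurentSeries (IsLocalRing.ResidueField O) :=
    fun i => if h : i < n then (hred i h).choose else 0
  have hbb : ∀ i (hi : i < n), Red O (((a' i / a' i₀ : E)) : LaurentSeries K) (bb i) := by
    intro i hi
    simp only [bb, dif_pos hi]
    exact (hred i hi).choose_spec
  have h0' : ((a' i₀ : E) : LaurentSeries K) ≠ 0 := fun h => h0 (Subtype.ext h)
  refine ⟨a' i₀, fun i => ((a' i / a' i₀ : E) : LaurentSeries K), bb, (a' i₀).2, h0',
    fun i _ => (a' i / a' i₀ : E).2, ?_, hbb, ?_⟩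
  · intro i hi
    rw [← ha' i hi]
    push_cast
    rw [mul_div_cancel₀ _ h0']
  · intro hsum
    have h2 := hli (fun i => ((a' i / a' i₀ : E) : LaurentSeries K)) bb
      (fun i _ => (a' i / a' i₀ : E).2) hbb hsum i₀ hi₀
    have h3 := hbb i₀ hi₀
    rw [div_self h0] at h3
    have h4 : bb i₀ = 1 := h3.unique red_one
    rw [h4] at h2
    exact one_ne_zero h2

include hE hu hli

/-- **Integral step.** -/
theorem isGood_of_span
    (hspan : ∀ f ∈ L, ∃ a : ℕ → LaurentSeries K, (∀ i < n, a i ∈ E) ∧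
      f = ∑ i ∈ Finset.range n, a i * u ^ i) : IsGood O L := by
  intro f hf hf0
  obtain ⟨a, ha, rfl⟩ := hspan f hf
  have hne : ∃ i < n, a i ≠ 0 := by
    by_contra hcon
    push Not at hcon
    apply hf0
    exact Finset.sum_eq_zero fun i hi => by rw [hcon i (Finset.mem_range.1 hi), zero_mul]
  obtain ⟨a₀, b, bb, ha₀, ha₀0, -, hab, hb, hsum⟩ := exists_factor hE n hli a ha hne
  obtain ⟨c, hc, g, hg, hr⟩ := hE a₀ ha₀ ha₀0
  refine ⟨c, hc, g * ∑ i ∈ Finset.range n, bb i * ub ^ i, mul_ne_zero hg hsum, ?_⟩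
  have e : c • ∑ i ∈ Finset.range n, a i * u ^ i =
      (c • a₀) * ∑ i ∈ Finset.range n, b i * u ^ i := by
    rw [smul_mul', Finset.mul_sum]
    congr 1
    refine Finset.sum_congr rfl fun i hi => ?_
    rw [hab i (Finset.mem_range.1 hi), mul_assoc]
  rw [e]
  exact hr.mul (Red.sum _ fun i hi => (hb i (Finset.mem_range.1 hi)).mul (hu.pow i))

/-- The Gauss ring of `E(u)` is `R_E[u]`, and its residue field is generated by `ū`. -/
theorem exists_red_coeffs (a : ℕ → LaurentSeries K) (ha : ∀ i < n, a i ∈ E)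
    {g : LaurentSeries (IsLocalRing.ResidueField O)}
    (hg : Red O (∑ i ∈ Finset.range n, a i * u ^ i) g) :
    ∃ ab : ℕ → LaurentSeries (IsLocalRing.ResidueField O), (∀ i < n, Red O (a i) (ab i)) ∧
      g = ∑ i ∈ Finset.range n, ab i * ub ^ i := by
  by_cases hne : ∃ i < n, a i ≠ 0
  · obtain ⟨a₀, b, bb, ha₀, ha₀0, -, hab, hb, hsum⟩ := exists_factor hE n hli a ha hne
    have e : ∑ i ∈ Finset.range n, a i * u ^ i = a₀ * ∑ i ∈ Finset.range n, b i * u ^ i := by
      rw [Finset.mul_sum]
      refine Finset.sum_congr rfl fun i hi => ?_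
      rw [hab i (Finset.mem_range.1 hi), mul_assoc]
    have hS : Red O (∑ i ∈ Finset.range n, b i * u ^ i) (∑ i ∈ Finset.range n, bb i * ub ^ i) :=
      Red.sum _ fun i hi => (hb i (Finset.mem_range.1 hi)).mul (hu.pow i)
    have hS0 := hS.ne_zero hsum
    have ha₀r : Red O a₀ (g / ∑ i ∈ Finset.range n, bb i * ub ^ i) := by
      have := hg.div hS hsum
      rwa [e, mul_div_cancel_right₀ _ hS0] at this
    refine ⟨fun i => (g / ∑ i ∈ Finset.range n, bb i * ub ^ i) * bb i, ?_, ?_⟩
    · intro i hi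
      rw [hab i hi]
      exact ha₀r.mul (hb i hi)
    · simp only [mul_assoc]
      rw [← Finset.mul_sum, div_mul_cancel₀ _ hsum]
  · push Not at hne
    refine ⟨fun _ => 0, fun i hi => by rw [hne i hi]; exact red_zero, ?_⟩
    have : ∑ i ∈ Finset.range n, a i * u ^ i = 0 :=
      Finset.sum_eq_zero fun i hi => by rw [hne i (Finset.mem_range.1 hi), zero_mul]
    rw [this] at hg
    rw [hg.unique red_zero]
    simp

end Integral

end Fermat.Agent.S28.Export

end
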