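import Fermat.Agent.S28.Export.Field

/-!
# S28 export: degree and separability of `k(t,u) / k(t)`
-/

set_option autoImplicit false

noncomputable section

open ModularCurve Polynomial IntermediateField

namespace Fermat.Agent.S28.Export

variable {k : Type*} [Field k]

theorem exists_frac (t x : LaurentSeries k) (hx : x ∈ IntermediateField.adjoin k {t}) :
    ∃ r s : k[X], s ≠ 0 ∧ x * evalT t s = evalT t r := by
  rw [IntermediateField.mem_adjoin_simple_iff] at hx
  obtain ⟨r, s, rfl⟩ := hx
  by_cases hs : aeval t s = 0
  · exact ⟨0, 1, one_ne_zero, by rw [hs, div_zero, zero_mul, map_zero]⟩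
  · refine ⟨r, s, ?_, ?_⟩
    · rintro rfl
      exact hs (map_zero _)
    · rw [evalT_eq_aeval, evalT_eq_aeval, div_mul_cancel₀ _ hs]

section

variable (t u : LaurentSeries k) (ht : Function.Injective (evalT t))
  (χ : k[X][X]) (hirr : Irreducible χ) (hmonic : χ.Monic) (hroot : χ.eval₂ (evalT t) u = 0)

/-- `P ↦ P(t)` with values in `k(t)` -/
def evalE : k[X] →+* IntermediateField.adjoin k {t} :=
  (aeval (⟨t, IntermediateField.mem_adjoin_simple_self k t⟩ : IntermediateField.adjoin k {t})).toRingHom

theorem algebraMap_comp_evalE :
    (algebraMap (IntermediateField.adjoin k {t}) (LaurentSeries k)).comp (evalE t) = evalT t := by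
  refine Polynomial.ringHom_ext (fun a => ?_) ?_
  · simp only [evalE, RingHom.comp_apply, AlgHom.toRingHom_eq_coe, RingHom.coe_coe, aeval_C,
      evalT_C]
    rw [← IsScalarTower.algebraMap_apply]
    exact algebraMap_laurentSeries_eq_single k a
  · simp only [evalE, RingHom.comp_apply, AlgHom.toRingHom_eq_coe, RingHom.coe_coe, aeval_X,
      evalT_X]
    rfl

/-- `χ` with coefficients in `k(t)` -/
def chiE : (IntermediateField.adjoin k {t})[X] := χ.map (evalE t)

include hmonic in
theorem chiE_monic : (chiE t χ).Monic := hmonic.map _

include hmonic in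
theorem chiE_natDegree : (chiE t χ).natDegree = χ.natDegree := hmonic.natDegree_map _

include hroot in
theorem aeval_chiE : aeval u (chiE t χ) = 0 := by
  rw [chiE, aeval_def, eval₂_map, algebraMap_comp_evalE, hroot]

include hmonic hroot in
theorem isIntegral_u : IsIntegral (IntermediateField.adjoin k {t}) u :=
  ⟨chiE t χ, chiE_monic t χ hmonic, aeval_chiE t u χ hroot⟩

include ht hirr hmonic hroot in
/-- the minimal polynomial of `u` over `k(t)` is `χ` -/
theorem minpoly_eq_chiE : minpoly (IntermediateField.adjoin k {t}) u = chiE t χ := by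
  classical
  have hint := isIntegral_u t u χ hmonic hroot
  set m := minpoly (IntermediateField.adjoin k {t}) u with hm
  have hdvd : m ∣ chiE t χ := minpoly.dvd _ u (aeval_chiE t u χ hroot)
  have hle : m.natDegree ≤ χ.natDegree := by
    rw [← chiE_natDegree t χ hmonic]
    exact natDegree_le_of_dvd hdvd (chiE_monic t χ hmonic).ne_zero
  have hge : χ.natDegree ≤ m.natDegree := by
    by_contra hlt
    push Not at hlt
    have h0 : aeval u m = 0 := minpoly.aeval _ u
    rw [aeval_eq_sum_range' hlt] at h0
    have key : ∀ i, ∃ r s : k[X], s ≠ 0 ∧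
        ((m.coeff i : IntermediateField.adjoin k {t}) : LaurentSeries k) * evalT t s = evalT t r :=
      fun i => exists_frac t _ (m.coeff i).2
    choose r s hs hrs using key
    have := li_of_irreducible t u ht χ hirr hmonic hroot
      (fun i => ((m.coeff i : IntermediateField.adjoin k {t}) : LaurentSeries k)) r s
      (fun i _ => hs i) (fun i _ => hrs i) (by
        rw [← h0]
        refine Finset.sum_congr rfl fun i _ => ?_
        rw [Algebra.smul_def]
        rfl)
    apply minpoly.ne_zero hint
    refine Polynomial.ext fun i => ?_
    rw [coeff_zero]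
    by_cases hi : i < χ.natDegree
    · exact Subtype.ext (this i hi)
    · exact coeff_eq_zero_of_natDegree_lt (lt_of_lt_of_le hlt (not_lt.1 hi))
  have hdeg : m.natDegree = (chiE t χ).natDegree := by
    rw [chiE_natDegree t χ hmonic]; exact le_antisymm hle hge
  exact (eq_of_monic_of_dvd_of_natDegree_le (minpoly.monic hint) (chiE_monic t χ hmonic) hdvd
    hdeg.ge).symm

theorem adjoin_simple_le_pair :
    IntermediateField.adjoin k {t} ≤ IntermediateField.adjoin k {t, u} :=
  IntermediateField.adjoin.mono _ _ _ (by simp)

theorem extendScalars_eq :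
    IntermediateField.extendScalars (adjoin_simple_le_pair t u) =
      IntermediateField.adjoin (IntermediateField.adjoin k {t}) {u} := by
  apply le_antisymm
  · intro x hx
    rw [IntermediateField.mem_extendScalars] at hx
    have hle : IntermediateField.adjoin k {t, u} ≤
        (IntermediateField.adjoin (IntermediateField.adjoin k {t}) {u}).restrictScalars k := by
      rw [IntermediateField.adjoin_le_iff]
      rintro y (rfl | rfl)
      · exact (IntermediateField.adjoin (IntermediateField.adjoin k {y}) {u}).algebraMap_mem
          (⟨y, IntermediateField.mem_adjoin_simple_self k y⟩ : IntermediateField.adjoin k {y})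
      · exact IntermediateField.mem_adjoin_simple_self _ y
    exact hle hx
  · rw [IntermediateField.adjoin_le_iff]
    rintro y rfl
    rw [SetLike.mem_coe, IntermediateField.mem_extendScalars]
    exact IntermediateField.subset_adjoin _ _ (by simp)

include ht hirr hmonic hroot in
/-- `[k(t,u) : k(t)] = n` -/
theorem relfinrank_adjoin_pair :
    (IntermediateField.adjoin k {t}).relfinrank (IntermediateField.adjoin k {t, u}) =
      χ.natDegree := by
  rw [IntermediateField.relfinrank_eq_finrank_of_le (adjoin_simple_le_pair t u), extendScalars_eq,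
    IntermediateField.adjoin.finrank (isIntegral_u t u χ hmonic hroot),
    minpoly_eq_chiE t u ht χ hirr hmonic hroot, chiE_natDegree t χ hmonic]

include ht hirr hmonic hroot in
/-- `u` is separable over `k(t)` if `χ'(u) ≠ 0` -/
theorem isSeparable_u (hsep : (derivative χ).eval₂ (evalT t) u ≠ 0) :
    IsSeparable (IntermediateField.adjoin k {t}) u := by
  rw [IsSeparable, minpoly_eq_chiE t u ht χ hirr hmonic hroot]
  have hirrE : Irreducible (chiE t χ) := by
    rw [← minpoly_eq_chiE t u ht χ hirr hmonic hroot]
    exact minpoly.irreducible (isIntegral_u t u χ hmonic hroot)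
  rw [separable_iff_derivative_ne_zero hirrE]
  intro h0
  apply hsep
  have : aeval u (derivative (chiE t χ)) = (derivative χ).eval₂ (evalT t) u := by
    rw [chiE, derivative_map, aeval_def, eval₂_map, algebraMap_comp_evalE]
  rw [← this, h0, map_zero]

include ht hirr hmonic hroot in
/-- `k(t,u) / k(t)` is separable if `χ'(u) ≠ 0` -/
theorem isSeparable_adjoin_pair (hsep : (derivative χ).eval₂ (evalT t) u ≠ 0) :
    Algebra.IsSeparable (IntermediateField.adjoin k {t})
      (IntermediateField.extendScalars (adjoin_simple_le_pair t u)) := by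
  rw [extendScalars_eq]
  exact (IntermediateField.isSeparable_adjoin_simple_iff_isSeparable _ _).2
    (isSeparable_u t u ht χ hirr hmonic hroot hsep)

end

end Fermat.Agent.S28.Export

end
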