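import Fermat.Agent.S28.Export.Modular
import Fermat.Agent.S28.Export.Degree

/-!
# S28 export, part VI: degrees, separability, integrality over the Gauss ring of `K(j)`, uniqueness
-/

set_option autoImplicit false
set_option linter.unusedSectionVars false

noncomputable section

open ModularCurve Polynomial
open Fermat.Agent.S18.Vert (chiS uS zlTo chiS_monic chiS_natDegree chiS_eval irreducible_chiS
  chiS_comp uS_comp isUnit_derivative)

namespace Fermat.Agent.S28.Export

variable {K : Type*} [Field K] [CharZero K] (O : ValuationSubring K) {N ℓ : ℕ} [Fact ℓ.Prime]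
  (D : UData N ℓ) (hℓ : O.LiesOverPrime ℓ)

/-- **(G0)** `[K(j,u) : K(j)] = n` -/
theorem relfinrank_bigK : (jK K).relfinrank (bigK O D hℓ) = D.n := by
  have := relfinrank_adjoin_pair (jqModC K) (uK O D hℓ) (evalJ_injective K) (chiK O D hℓ)
    (irreducible_chiS D _) (chiS_monic D _) (chiK_eval O D hℓ)
  rwa [chiK_natDegree] at this

/-- **(G0)** `[k(j,ū) : k(j)] = n` -/
theorem relfinrank_bigk : (jK (IsLocalRing.ResidueField O)).relfinrank (bigk O D hℓ) = D.n := by
  have := relfinrank_adjoin_pair (jqModC (IsLocalRing.ResidueField O)) (uk O D hℓ)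
    (evalJ_injective _) (chik O D hℓ) (irreducible_chiS D _) (chiS_monic D _) (chik_eval O D hℓ)
  rwa [chik_natDegree] at this

theorem derivative_chik_ne_zero :
    (derivative (chik O D hℓ)).eval₂ (evalT (jqModC (IsLocalRing.ResidueField O)))
      (uk O D hℓ) ≠ 0 := by
  have := isUnit_derivative D ((IsLocalRing.residue O).comp (zlTo O hℓ))
  rw [← uS_comp] at this
  exact this.ne_zero

/-- **(G0)** `ū` is separable over `k(j)` -/
theorem isSeparable_uk : IsSeparable (jK (IsLocalRing.ResidueField O)) (uk O D hℓ) :=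
  isSeparable_u (jqModC (IsLocalRing.ResidueField O)) (uk O D hℓ)
    (evalJ_injective _) (chik O D hℓ) (irreducible_chiS D _) (chiS_monic D _) (chik_eval O D hℓ)
    (derivative_chik_ne_zero O D hℓ)

theorem jK_le_bigk : jK (IsLocalRing.ResidueField O) ≤ bigk O D hℓ :=
  adjoin_simple_le_pair _ _

theorem jK_le_bigK : jK K ≤ bigK O D hℓ := adjoin_simple_le_pair _ _

/-- **(G0)** `k(j,ū) / k(j)` is separable -/
theorem isSeparable_bigk : Algebra.IsSeparable (jK (IsLocalRing.ResidueField O))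
    (IntermediateField.extendScalars (jK_le_bigk O D hℓ)) :=
  isSeparable_adjoin_pair (jqModC (IsLocalRing.ResidueField O)) (uk O D hℓ)
    (evalJ_injective _) (chik O D hℓ) (irreducible_chiS D _) (chiS_monic D _) (chik_eval O D hℓ)
    (derivative_chik_ne_zero O D hℓ)

/-- The Gauss ring of `K(j)`, as a subring of `K((q))`. -/
def Rv : Subring (LaurentSeries K) where
  carrier := {a | a ∈ jK K ∧ ∃ g, Red O a g}
  mul_mem' := by
    rintro a b ⟨ha, g, hg⟩ ⟨hb, g', hg'⟩
    exact ⟨mul_mem ha hb, _, hg.mul hg'⟩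
  one_mem' := ⟨one_mem _, 1, red_one⟩
  add_mem' := by
    rintro a b ⟨ha, g, hg⟩ ⟨hb, g', hg'⟩
    exact ⟨add_mem ha hb, _, hg.add hg'⟩
  zero_mem' := ⟨zero_mem _, 0, red_zero⟩
  neg_mem' := by
    rintro a ⟨ha, g, hg⟩
    exact ⟨neg_mem ha, _, hg.neg⟩

theorem mem_Rv_iff {a : LaurentSeries K} : a ∈ Rv O ↔ a ∈ jK K ∧ ∃ g, Red O a g := Iff.rfl

theorem iota_evalT_mem_Rv (P : O[X]) : iota O (evalT (jqModC O) P) ∈ Rv O := by
  refine ⟨?_, _, red_iota _⟩
  rw [iota_evalT, iota_jqModC, evalT_eq_aeval]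
  exact aeval_mem_of_mem _ (IntermediateField.mem_adjoin_simple_self _ _) _

/-- `P ↦ P(j)`, from `O[Y]` to the Gauss ring of `K(j)` -/
def evalRv : O[X] →+* Rv O :=
  RingHom.codRestrict ((iota O).comp (evalT (jqModC O))) (Rv O) (iota_evalT_mem_Rv O)

/-- `u` is integral over `O[j]`, a fortiori over the Gauss ring of `K(j)`. -/
theorem isIntegral_uK : IsIntegral (Rv O) (uK O D hℓ) := by
  refine ⟨(chiS D (zlTo O hℓ)).map (evalRv O), (chiS_monic D _).map _, ?_⟩
  rw [eval₂_map]
  have h1 : (algebraMap (Rv O) (LaurentSeries K)).comp (evalRv O) =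
      (iota O).comp (evalT (jqModC O)) := RingHom.ext fun x => rfl
  rw [h1, uK, ← hom_eval₂]
  have := chiS_eval D (zlTo O hℓ)
  rw [uO, evalT_jqModC, this, map_zero]

/-- **(G3)** every element of the Gauss ring of `K(j,u)` is integral over the Gauss ring of
`K(j)`. -/
theorem isIntegral_of_red {f : LaurentSeries K} (hf : f ∈ bigK O D hℓ)
    {g : LaurentSeries (IsLocalRing.ResidueField O)} (hg : Red O f g) : IsIntegral (Rv O) f := by
  obtain ⟨a, ab, ha, hab, rfl, -⟩ := exists_coeffs_of_red O D hℓ hf hg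
  refine IsIntegral.sum _ fun i hi => IsIntegral.mul ?_ ((isIntegral_uK O D hℓ).pow i)
  exact isIntegral_algebraMap (x := (⟨a i, ha i, ab i, hab i (Finset.mem_range.1 hi)⟩ : Rv O))

/-- **(G3)** uniqueness of the extension of the Gauss valuation of `K(j)` to `K(j,u)`. -/
theorem eq_gaussRing_bigK (V : ValuationSubring (bigK O D hℓ))
    (hV : ∀ a : bigK O D hℓ, (a : LaurentSeries K) ∈ Rv O → a ∈ V)
    (hm : ∀ c ∈ O.nonunits, algebraMap K (bigK O D hℓ) c ∈ V.nonunits) :
    V = gaussRing O (bigK O D hℓ) (isGood_bigK O D hℓ) := by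
  refine eq_gaussRing_of_le _ V ?_ hm
  -- `u ∈ V`
  let uF : bigK O D hℓ := ⟨uK O D hℓ, IntermediateField.subset_adjoin _ _ (by simp)⟩
  have hmemF : ∀ P : O[X], iota O (evalT (jqModC O) P) ∈ bigK O D hℓ := fun P =>
    jK_le_bigK O D hℓ (iota_evalT_mem_Rv O P).1
  let e1 : O[X] →+* bigK O D hℓ :=
    RingHom.codRestrict ((iota O).comp (evalT (jqModC O))) (bigK O D hℓ).toSubfield.toSubring hmemF
  let e2 : O[X] →+* V := RingHom.codRestrict e1 V.toSubring
    (fun P => hV (e1 P) (iota_evalT_mem_Rv O P))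
  have huint : IsIntegral V uF := by
    refine ⟨(chiS D (zlTo O hℓ)).map e2, (chiS_monic D _).map _, ?_⟩
    rw [eval₂_map]
    apply Subtype.val_injective
    have h0 : ((0 : bigK O D hℓ) : LaurentSeries K) = 0 := rfl
    rw [h0]
    have h2 := hom_eval₂ (chiS D (zlTo O hℓ)) ((algebraMap V (bigK O D hℓ)).comp e2)
      (algebraMap (bigK O D hℓ) (LaurentSeries K)) uF
    have h3 : (algebraMap (bigK O D hℓ) (LaurentSeries K)).comp
        ((algebraMap V (bigK O D hℓ)).comp e2) = (iota O).comp (evalT (jqModC O)) :=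
      RingHom.ext fun x => rfl
    rw [h3] at h2
    have h4 : algebraMap (bigK O D hℓ) (LaurentSeries K) uF = iota O (uO O D hℓ) := rfl
    rw [h4, ← hom_eval₂] at h2
    have := chiS_eval D (zlTo O hℓ)
    rw [uO, evalT_jqModC, this, map_zero] at h2
    exact h2
  have huV : uF ∈ V := by
    obtain ⟨y, hy⟩ := IsIntegrallyClosed.isIntegral_iff.1 huint
    rw [← hy]; exact y.2
  intro f hf
  obtain ⟨g, hg⟩ := hf
  obtain ⟨a, ab, ha, hab, hfa, -⟩ := exists_coeffs_of_red O D hℓ f.2 hg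
  have : f = ∑ i ∈ Finset.range D.n,
      (⟨a i, jK_le_bigK O D hℓ (ha i)⟩ : bigK O D hℓ) * uF ^ i := by
    apply Subtype.val_injective
    rw [hfa]
    simp [uF]
  rw [this]
  exact sum_mem fun i hi => mul_mem (hV _ ⟨ha i, ab i, hab i (Finset.mem_range.1 hi)⟩)
    (pow_mem huV i)

end Fermat.Agent.S28.Export

end
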