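import Mathlib
import Fermat.Prelude.Def_ModularCurve_X0ModL

/-!
# S28 export, part I: reduction of Laurent series over a valued field

`K` a field, `O` a valuation subring with residue field `k`.  A Laurent series `f ∈ K((q))`
*reduces to* `g ∈ k((q))` (`Red O f g`) if `f = G₁ / G₂` with `G₁ G₂ ∈ O((q))`, `Ḡ₂ ≠ 0` and
`g = Ḡ₁ / Ḡ₂`.  (Elements of the function field of Gauss norm `≤ 1` need not have integral
`q`-expansions, e.g. `1 / (1 + π j)`; they are quotients of integral ones.)
-/

set_option autoImplicit false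

noncomputable section

open ModularCurve

namespace Fermat.Agent.S28.Export

variable {K : Type*} [Field K] (O : ValuationSubring K)

/-- coefficientwise inclusion `O((q)) → K((q))` -/
abbrev iota : LaurentSeries O →+* LaurentSeries K := coeffMap O.subtype

/-- coefficientwise reduction `O((q)) → k((q))` -/
abbrev rho : LaurentSeries O →+* LaurentSeries (IsLocalRing.ResidueField O) :=
  coeffMap (IsLocalRing.residue O)

theorem iota_injective : Function.Injective (iota O) := by
  intro x y h
  ext n
  have := congrArg (fun z => z.coeff n) h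
  simpa using this

/-- `f` is a quotient of two `O`-integral series, the denominator having nonzero reduction,
and `g` is the quotient of the reductions. -/
def Red (f : LaurentSeries K) (g : LaurentSeries (IsLocalRing.ResidueField O)) : Prop :=
  ∃ G₁ G₂ : LaurentSeries O, rho O G₂ ≠ 0 ∧ f * iota O G₂ = iota O G₁ ∧
    g * rho O G₂ = rho O G₁

variable {O}

theorem red_iota (G : LaurentSeries O) : Red O (iota O G) (rho O G) :=
  ⟨G, 1, by simp, by simp, by simp⟩

theorem red_zero : Red O 0 0 := by simpa using red_iota (O := O) 0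

theorem red_one : Red O 1 1 := by simpa using red_iota (O := O) 1

theorem Red.unique {f : LaurentSeries K} {g g' : LaurentSeries (IsLocalRing.ResidueField O)}
    (h : Red O f g) (h' : Red O f g') : g = g' := by
  obtain ⟨G₁, G₂, h2, hf, hg⟩ := h
  obtain ⟨G₁', G₂', h2', hf', hg'⟩ := h'
  have e : G₁ * G₂' = G₁' * G₂ := by
    apply iota_injective O
    rw [map_mul, map_mul, ← hf, ← hf']
    ring
  have e' := congrArg (rho O) e
  rw [map_mul, map_mul, ← hg, ← hg'] at e'
  have : (g - g') * (rho O G₂ * rho O G₂') = 0 := by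
    linear_combination e'
  rcases mul_eq_zero.1 this with h0 | h0
  · exact sub_eq_zero.1 h0
  · exact absurd h0 (mul_ne_zero h2 h2')

theorem Red.add {f f' : LaurentSeries K} {g g' : LaurentSeries (IsLocalRing.ResidueField O)}
    (h : Red O f g) (h' : Red O f' g') : Red O (f + f') (g + g') := by
  obtain ⟨G₁, G₂, h2, hf, hg⟩ := h
  obtain ⟨G₁', G₂', h2', hf', hg'⟩ := h'
  refine ⟨G₁ * G₂' + G₁' * G₂, G₂ * G₂', ?_, ?_, ?_⟩
  · rw [map_mul]; exact mul_ne_zero h2 h2'
  · simp only [map_mul, map_add, ← hf, ← hf']; ring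
  · simp only [map_mul, map_add, ← hg, ← hg']; ring

theorem Red.mul {f f' : LaurentSeries K} {g g' : LaurentSeries (IsLocalRing.ResidueField O)}
    (h : Red O f g) (h' : Red O f' g') : Red O (f * f') (g * g') := by
  obtain ⟨G₁, G₂, h2, hf, hg⟩ := h
  obtain ⟨G₁', G₂', h2', hf', hg'⟩ := h'
  refine ⟨G₁ * G₁', G₂ * G₂', ?_, ?_, ?_⟩
  · rw [map_mul]; exact mul_ne_zero h2 h2'
  · simp only [map_mul, ← hf, ← hf']; ring
  · simp only [map_mul, ← hg, ← hg']; ring

theorem Red.neg {f : LaurentSeries K} {g : LaurentSeries (IsLocalRing.ResidueField O)}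
    (h : Red O f g) : Red O (-f) (-g) := by
  obtain ⟨G₁, G₂, h2, hf, hg⟩ := h
  exact ⟨-G₁, G₂, h2, by rw [map_neg, ← hf]; ring, by rw [map_neg, ← hg]; ring⟩

theorem Red.sub {f f' : LaurentSeries K} {g g' : LaurentSeries (IsLocalRing.ResidueField O)}
    (h : Red O f g) (h' : Red O f' g') : Red O (f - f') (g - g') := by
  rw [sub_eq_add_neg, sub_eq_add_neg]; exact h.add h'.neg

theorem Red.pow {f : LaurentSeries K} {g : LaurentSeries (IsLocalRing.ResidueField O)}
    (h : Red O f g) (n : ℕ) : Red O (f ^ n) (g ^ n) := by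
  induction n with
  | zero => simpa using red_one
  | succ n ih => rw [pow_succ, pow_succ]; exact ih.mul h

theorem Red.sum {ι : Type*} (s : Finset ι) {f : ι → LaurentSeries K}
    {g : ι → LaurentSeries (IsLocalRing.ResidueField O)} (h : ∀ i ∈ s, Red O (f i) (g i)) :
    Red O (∑ i ∈ s, f i) (∑ i ∈ s, g i) := by
  classical
  induction s using Finset.induction_on with
  | empty => simpa using red_zero
  | insert a s ha ih =>
    rw [Finset.sum_insert ha, Finset.sum_insert ha]
    exact (h a (Finset.mem_insert_self a s)).add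
      (ih fun i hi => h i (Finset.mem_insert_of_mem hi))

theorem Red.inv {f : LaurentSeries K} {g : LaurentSeries (IsLocalRing.ResidueField O)}
    (h : Red O f g) (hg0 : g ≠ 0) : Red O f⁻¹ g⁻¹ := by
  obtain ⟨G₁, G₂, h2, hf, hg⟩ := h
  have h1 : rho O G₁ ≠ 0 := by rw [← hg]; exact mul_ne_zero hg0 h2
  have h1' : iota O G₁ ≠ 0 := by
    intro h0
    have : G₁ = 0 := iota_injective O (by rw [h0, map_zero])
    exact h1 (by rw [this, map_zero])
  have hf0 : f ≠ 0 := by
    rintro rfl
    rw [zero_mul] at hf
    exact h1' hf.symm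
  refine ⟨G₂, G₁, h1, ?_, ?_⟩
  · rw [← hf, inv_mul_cancel_left₀ hf0]
  · rw [← hg, inv_mul_cancel_left₀ hg0]

theorem Red.div {f f' : LaurentSeries K} {g g' : LaurentSeries (IsLocalRing.ResidueField O)}
    (h : Red O f g) (h' : Red O f' g') (hg0 : g' ≠ 0) : Red O (f / f') (g / g') := by
  rw [div_eq_mul_inv, div_eq_mul_inv]; exact h.mul (h'.inv hg0)

theorem Red.ne_zero {f : LaurentSeries K} {g : LaurentSeries (IsLocalRing.ResidueField O)}
    (h : Red O f g) (hg0 : g ≠ 0) : f ≠ 0 := by
  rintro rfl
  exact hg0 (h.unique red_zero)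

/-- constants -/
theorem red_C (c : O) :
    Red O (HahnSeries.C (c : K)) (HahnSeries.C (IsLocalRing.residue O c)) := by
  have h := red_iota (O := O) (HahnSeries.C c)
  have e1 : iota O (HahnSeries.C c) = HahnSeries.C (c : K) := by
    change coeffMap O.subtype (HahnSeries.single 0 c) = _
    rw [coeffMap_single]; rfl
  have e2 : rho O (HahnSeries.C c) = HahnSeries.C (IsLocalRing.residue O c) := by
    change coeffMap (IsLocalRing.residue O) (HahnSeries.single 0 c) = _
    rw [coeffMap_single]; rfl
  rwa [e1, e2] at h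

theorem smul_eq_C_mul {R : Type*} [CommRing R] (c : R) (f : LaurentSeries R) :
    c • f = HahnSeries.C c * f := by
  ext n
  simp

theorem Red.smul {f : LaurentSeries K} {g : LaurentSeries (IsLocalRing.ResidueField O)}
    (h : Red O f g) (c : O) : Red O ((c : K) • f) (IsLocalRing.residue O c • g) := by
  rw [smul_eq_C_mul, smul_eq_C_mul]; exact (red_C c).mul h

/-- multiplying by an element of the maximal ideal kills the reduction -/
theorem Red.smul_of_mem_nonunits {f : LaurentSeries K}
    {g : LaurentSeries (IsLocalRing.ResidueField O)} (h : Red O f g) {c : K}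
    (hc : c ∈ O.nonunits) : Red O (c • f) 0 := by
  have hcO : c ∈ O := ValuationSubring.nonunits_subset hc
  have h1 := h.smul ⟨c, hcO⟩
  have h2 : IsLocalRing.residue O ⟨c, hcO⟩ = 0 := by
    rw [IsLocalRing.residue_eq_zero_iff]
    exact (ValuationSubring.mem_nonunits_iff_exists_mem_maximalIdeal.1 hc).choose_spec
  rw [h2, zero_smul] at h1
  exact h1

/-- If `f` has nonzero reduction and `c • f` is reducible at all, then `c ∈ O`. -/
theorem mem_of_red_smul {f : LaurentSeries K} {g g' : LaurentSeries (IsLocalRing.ResidueField O)}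
    (h : Red O f g) (hg0 : g ≠ 0) {c : K} (h' : Red O (c • f) g') : c ∈ O := by
  by_contra hc
  have hc0 : c ≠ 0 := by rintro rfl; exact hc O.zero_mem
  have hinv : c⁻¹ ∈ O.nonunits := by
    rw [ValuationSubring.mem_nonunits_iff_exists_mem_maximalIdeal]
    have hmem : c⁻¹ ∈ O := (O.mem_or_inv_mem c).resolve_left hc
    refine ⟨hmem, ?_⟩
    rw [IsLocalRing.mem_maximalIdeal, mem_nonunits_iff]
    intro hu
    obtain ⟨v, hv⟩ := hu.exists_right_inv
    apply hc
    have : (c⁻¹ : K) * (v : K) = 1 := by
      have := congrArg (Subtype.val) hv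
      simpa using this
    have hcv : c = (v : K) := by
      field_simp at this
      exact this.symm
    rw [hcv]; exact v.2
  have h1 := h'.smul_of_mem_nonunits hinv
  rw [smul_smul, inv_mul_cancel₀ hc0, one_smul] at h1
  exact hg0 (h.unique h1)

end Fermat.Agent.S28.Export

end
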