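import Fermat.Agent.S28.Export.Good

/-!
# S28 export: the residue field of a subfield of `K((q))`, as a subfield of `k((q))`
-/

set_option autoImplicit false

noncomputable section

open ModularCurve

namespace Fermat.Agent.S28.Export

variable {K : Type*} [Field K] (O : ValuationSubring K)

/-- The set of reductions of elements of `E`; it is a subfield of `k((q))` containing `k`. -/
def resField (E : IntermediateField K (LaurentSeries K)) :
    IntermediateField (IsLocalRing.ResidueField O) (LaurentSeries (IsLocalRing.ResidueField O)) where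
  carrier := {g | ∃ f ∈ E, Red O f g}
  mul_mem' := by
    rintro a b ⟨f, hf, h⟩ ⟨f', hf', h'⟩
    exact ⟨f * f', mul_mem hf hf', h.mul h'⟩
  one_mem' := ⟨1, one_mem E, red_one⟩
  add_mem' := by
    rintro a b ⟨f, hf, h⟩ ⟨f', hf', h'⟩
    exact ⟨f + f', add_mem hf hf', h.add h'⟩
  zero_mem' := ⟨0, zero_mem E, red_zero⟩
  algebraMap_mem' := by
    intro r
    obtain ⟨c, rfl⟩ := IsLocalRing.residue_surjective r
    refine ⟨HahnSeries.C (c : K), ?_, ?_⟩
    · have : (HahnSeries.C (c : K) : LaurentSeries K) = algebraMap K (LaurentSeries K) (c : K) :=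
        (algebraMap_laurentSeries_eq_single K _).symm
      rw [this]; exact E.algebraMap_mem _
    · rw [algebraMap_laurentSeries_eq_single]
      exact red_C c
  inv_mem' := by
    rintro a ⟨f, hf, h⟩
    by_cases ha : a = 0
    · rw [ha, inv_zero]; exact ⟨0, zero_mem E, red_zero⟩
    · exact ⟨f⁻¹, inv_mem hf, h.inv ha⟩

variable {O}

theorem mem_resField_iff {E : IntermediateField K (LaurentSeries K)}
    {g : LaurentSeries (IsLocalRing.ResidueField O)} :
    g ∈ resField O E ↔ ∃ f ∈ E, Red O f g := Iff.rfl

theorem resField_mono {E E' : IntermediateField K (LaurentSeries K)} (h : E ≤ E') :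
    resField O E ≤ resField O E' := by
  rintro g ⟨f, hf, hr⟩
  exact ⟨f, h hf, hr⟩

theorem range_redHom {E : IntermediateField K (LaurentSeries K)} (h : IsGood O E) :
    (Set.range (redHom h) : Set (LaurentSeries (IsLocalRing.ResidueField O))) = resField O E := by
  ext g
  constructor
  · rintro ⟨f, rfl⟩
    exact ⟨_, (f : E).2, red_redHom h f⟩
  · rintro ⟨f, hf, hr⟩
    exact ⟨⟨⟨f, hf⟩, ⟨g, hr⟩⟩, redHom_eq h hr⟩

end Fermat.Agent.S28.Export

end
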