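import Fermat.Agent.S28.Export.Field
import Fermat.Agent.S28.Export.ResField
import Fermat.Agent.S18.Vert.Core

/-!
# S28 export, part V: the Gauss valuation on `K(j, u) ⊇ F_N` for an arbitrary valued field `(K, O)`
of residue characteristic `ℓ ∤ N`.
-/

set_option autoImplicit false
set_option linter.unusedSectionVars false

noncomputable section

open ModularCurve Polynomial
open Fermat.Agent.S18.Vert (chiS uS zlTo chiS_monic chiS_natDegree chiS_eval irreducible_chiS
  chiS_comp uS_comp)

namespace Fermat.Agent.S28.Export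

theorem evalT_jqModC (S : Type*) [CommRing S] : evalT (jqModC S) = evalJ S := rfl

theorem aeval_mem_of_mem {k Ω : Type*} [Field k] [Field Ω] [Algebra k Ω]
    (E : IntermediateField k Ω) {x : Ω} (hx : x ∈ E) (p : k[X]) : aeval x p ∈ E := by
  rw [aeval_eq_sum_range]
  exact sum_mem fun i _ => E.smul_mem (pow_mem hx i)

variable {K : Type*} [Field K] [CharZero K] (O : ValuationSubring K) {N ℓ : ℕ} [Fact ℓ.Prime]
  (D : UData N ℓ) (hℓ : O.LiesOverPrime ℓ)

/-- `u` with coefficients in `O`. -/
def uO : LaurentSeries O := uS D (zlTo O hℓ)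

/-- `u` with coefficients in `K`. -/
def uK : LaurentSeries K := iota O (uO O D hℓ)

/-- `u` with coefficients in the residue field. -/
def uk : LaurentSeries (IsLocalRing.ResidueField O) := rho O (uO O D hℓ)

theorem red_uK : Red O (uK O D hℓ) (uk O D hℓ) := red_iota _

theorem uK_eq : uK O D hℓ = coeffMap (algebraMap ℚ K) D.u := by
  rw [uK, uO, uS, ← D.toQ_uZ, toQ, coeffMap_coeffMap, coeffMap_coeffMap]
  refine coeffMap_congr ?_ _
  ext x
  simp [zlTo]

theorem iota_jqModC : iota O (jqModC O) = jqModC K := coeffMap_jqModC _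

theorem rho_jqModC : rho O (jqModC O) = jqModC (IsLocalRing.ResidueField O) := coeffMap_jqModC _

theorem red_jqModC : Red O (jqModC K) (jqModC (IsLocalRing.ResidueField O)) := by
  have := red_iota (jqModC O)
  rwa [iota_jqModC, rho_jqModC] at this

/-- `K(j)` -/
abbrev jK (K : Type*) [Field K] : IntermediateField K (LaurentSeries K) :=
  IntermediateField.adjoin K {jqModC K}

/-- `K(j, u)` -/
def bigK : IntermediateField K (LaurentSeries K) :=
  IntermediateField.adjoin K {jqModC K, uK O D hℓ}

/-- `k(j, u)` -/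
def bigk : IntermediateField (IsLocalRing.ResidueField O)
    (LaurentSeries (IsLocalRing.ResidueField O)) :=
  IntermediateField.adjoin (IsLocalRing.ResidueField O)
    {jqModC (IsLocalRing.ResidueField O), uk O D hℓ}

theorem injective_evalT_rho : Function.Injective (evalT (rho O (jqModC O))) := by
  rw [rho_jqModC, evalT_jqModC]
  exact evalJ_injective _

/-- the Gauss valuation on `K(j)` -/
theorem isGood_jK : IsGood O (jK K) := by
  have := isGood_adjoin_simple (jqModC O) (injective_evalT_rho O)
  rwa [iota_jqModC] at this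

/-- `χ` over `K` -/
def chiK : K[X][X] := chiS D (O.subtype.comp (zlTo O hℓ))

/-- `χ` over `k` -/
def chik : (IsLocalRing.ResidueField O)[X][X] := chiS D ((IsLocalRing.residue O).comp (zlTo O hℓ))

theorem chiK_eval : (chiK O D hℓ).eval₂ (evalT (jqModC K)) (uK O D hℓ) = 0 := by
  have := chiS_eval D (O.subtype.comp (zlTo O hℓ))
  rwa [← uS_comp] at this

theorem chik_eval : (chik O D hℓ).eval₂ (evalT (jqModC (IsLocalRing.ResidueField O)))
    (uk O D hℓ) = 0 := by
  have := chiS_eval D ((IsLocalRing.residue O).comp (zlTo O hℓ))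
  rwa [← uS_comp] at this

theorem chiK_natDegree : (chiK O D hℓ).natDegree = D.n := chiS_natDegree D _

theorem chik_natDegree : (chik O D hℓ).natDegree = D.n := chiS_natDegree D _

/-- independence of the powers of `ū` over the residue field of `K(j)` -/
theorem li_uk (b : ℕ → LaurentSeries K) (bb : ℕ → LaurentSeries (IsLocalRing.ResidueField O))
    (hb : ∀ i < D.n, b i ∈ jK K) (hr : ∀ i < D.n, Red O (b i) (bb i))
    (hsum : ∑ i ∈ Finset.range D.n, bb i * uk O D hℓ ^ i = 0) : ∀ i < D.n, bb i = 0 := by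
  classical
  have key : ∀ i, i < D.n → ∃ r s : O[X], s.map (IsLocalRing.residue O) ≠ 0 ∧
      bb i * evalT (rho O (jqModC O)) (s.map (IsLocalRing.residue O)) =
        evalT (rho O (jqModC O)) (r.map (IsLocalRing.residue O)) := by
    intro i hi
    have hbi : b i ∈ IntermediateField.adjoin K {iota O (jqModC O)} := by
      rw [iota_jqModC]; exact hb i hi
    obtain ⟨r, s, hs, -, h⟩ := exists_frac_of_red (jqModC O) (injective_evalT_rho O) hbi (hr i hi)
    exact ⟨r, s, hs, h⟩
  let r : ℕ → (IsLocalRing.ResidueField O)[X] := fun i =>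
    if h : i < D.n then (key i h).choose.map (IsLocalRing.residue O) else 0
  let s : ℕ → (IsLocalRing.ResidueField O)[X] := fun i =>
    if h : i < D.n then (key i h).choose_spec.choose.map (IsLocalRing.residue O) else 1
  have hs : ∀ i < D.n, s i ≠ 0 := by
    intro i hi
    simp only [s, dif_pos hi]
    exact (key i hi).choose_spec.choose_spec.1
  have hrs : ∀ i < D.n, bb i * evalT (rho O (jqModC O)) (s i) = evalT (rho O (jqModC O)) (r i) := by
    intro i hi
    simp only [s, r, dif_pos hi]
    exact (key i hi).choose_spec.choose_spec.2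
  have hn := chik_natDegree O D hℓ
  have := li_of_irreducible (rho O (jqModC O)) (uk O D hℓ) (injective_evalT_rho O)
    (chik O D hℓ) (irreducible_chiS D _) (chiS_monic D _)
    (by rw [rho_jqModC]; exact chik_eval O D hℓ) bb r s
    (by rw [hn]; exact hs) (by rw [hn]; exact hrs) (by rw [hn]; exact hsum)
  rwa [hn] at this

theorem span_bigK (f : LaurentSeries K) (hf : f ∈ bigK O D hℓ) :
    ∃ a : ℕ → LaurentSeries K, (∀ i, a i ∈ jK K) ∧
      f = ∑ i ∈ Finset.range D.n, a i * uK O D hℓ ^ i := by
  have := exists_span (jqModC K) (uK O D hℓ) (chiK O D hℓ) (chiS_monic D _) (chiK_eval O D hℓ) f hf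
  rwa [chiK_natDegree] at this

/-- **(G1)** `K(j, u)` is Gauss-good. -/
theorem isGood_bigK : IsGood O (bigK O D hℓ) :=
  isGood_of_span (isGood_jK O) (red_uK O D hℓ) D.n (li_uk O D hℓ) fun f hf => by
    obtain ⟨a, ha, h⟩ := span_bigK O D hℓ f hf
    exact ⟨a, fun i _ => ha i, h⟩

/-- **(G3)** the Gauss ring of `K(j,u)` is `R_v[u]`. -/
theorem exists_coeffs_of_red {f : LaurentSeries K} (hf : f ∈ bigK O D hℓ)
    {g : LaurentSeries (IsLocalRing.ResidueField O)} (hg : Red O f g) :
    ∃ (a : ℕ → LaurentSeries K) (ab : ℕ → LaurentSeries (IsLocalRing.ResidueField O)),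
      (∀ i, a i ∈ jK K) ∧ (∀ i < D.n, Red O (a i) (ab i)) ∧
      f = ∑ i ∈ Finset.range D.n, a i * uK O D hℓ ^ i ∧
      g = ∑ i ∈ Finset.range D.n, ab i * uk O D hℓ ^ i := by
  obtain ⟨a, ha, rfl⟩ := span_bigK O D hℓ f hf
  obtain ⟨ab, hab, h⟩ := exists_red_coeffs (isGood_jK O) (red_uK O D hℓ) D.n (li_uk O D hℓ) a
    (fun i _ => ha i) hg
  exact ⟨a, ab, ha, hab, rfl, h⟩

/-- the residue field of `K(j)` is `k(j)` -/
theorem resField_jK : resField O (jK K) = jK (IsLocalRing.ResidueField O) := by
  apply le_antisymm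
  · rintro g ⟨f, hf, hr⟩
    have hf' : f ∈ IntermediateField.adjoin K {iota O (jqModC O)} := by
      rw [iota_jqModC]; exact hf
    obtain ⟨r, s, hs, -, h⟩ := exists_frac_of_red (jqModC O) (injective_evalT_rho O) hf' hr
    have hne := evalT_rho_ne_zero (jqModC O) (injective_evalT_rho O) hs
    rw [← eq_div_iff hne] at h
    rw [h, rho_jqModC, evalT_eq_aeval, evalT_eq_aeval]
    have hj : jqModC (IsLocalRing.ResidueField O) ∈ jK (IsLocalRing.ResidueField O) :=
      IntermediateField.mem_adjoin_simple_self _ _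
    exact div_mem (aeval_mem_of_mem _ hj _) (aeval_mem_of_mem _ hj _)
  · rw [IntermediateField.adjoin_le_iff]
    rintro g rfl
    exact ⟨jqModC K, IntermediateField.mem_adjoin_simple_self _ _, red_jqModC O⟩

/-- **(G2)** the residue field of `K(j,u)` is `k(j,ū)` -/
theorem resField_bigK : resField O (bigK O D hℓ) = bigk O D hℓ := by
  apply le_antisymm
  · rintro g ⟨f, hf, hr⟩
    obtain ⟨a, ab, ha, hab, -, rfl⟩ := exists_coeffs_of_red O D hℓ hf hr
    refine sum_mem fun i hi => mul_mem ?_ (pow_mem ?_ i)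
    · have h1 : ab i ∈ resField O (jK K) := ⟨a i, ha i, hab i (Finset.mem_range.1 hi)⟩
      rw [resField_jK] at h1
      have hle : jK (IsLocalRing.ResidueField O) ≤ bigk O D hℓ :=
        IntermediateField.adjoin.mono _ _ _ (by simp)
      exact hle h1
    · exact IntermediateField.subset_adjoin _ _ (by simp)
  · rw [bigk, IntermediateField.adjoin_le_iff]
    rintro g (rfl | rfl)
    · exact ⟨jqModC K, IntermediateField.subset_adjoin _ _ (by simp), red_jqModC O⟩
    · exact ⟨uK O D hℓ, IntermediateField.subset_adjoin _ _ (by simp), red_uK O D hℓ⟩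

/-- `F_N ⊆ K(j,u)` -/
theorem full_le_bigK : modularFunctionFieldFullC K N ≤ bigK O D hℓ := by
  let ψ : LaurentSeries ℚ →+* LaurentSeries K := coeffMap (algebraMap ℚ K)
  let S : Subfield (LaurentSeries ℚ) := (bigK O D hℓ).toSubfield.comap ψ
  have hle : IntermediateField.adjoin ℚ {jq, D.u} ≤
      S.toIntermediateField (fun r => by
        rw [eq_ratCast]
        exact SubfieldClass.ratCast_mem S r) := by
    rw [IntermediateField.adjoin_le_iff]
    rintro y (rfl | rfl)
    · change ψ jq ∈ bigK O D hℓ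
      have : ψ jq = jqModC K := coeffMap_jqModC (R := ℚ) _
      rw [this]
      exact IntermediateField.subset_adjoin _ _ (by simp)
    · change ψ D.u ∈ bigK O D hℓ
      rw [← uK_eq O D hℓ]
      exact IntermediateField.subset_adjoin _ _ (by simp)
  rw [modularFunctionFieldFullC, IntermediateField.adjoin_le_iff]
  rintro x ⟨d, hd, hdN, rfl⟩
  have h1 : ψ (qExpand ℚ d jq) ∈ bigK O D hℓ := hle (D.gen d hdN)
  have h2 : ψ (qExpand ℚ d jq) = qExpand K d (jqModC K) := by
    rw [coeffMap_qExpand]
    congr 1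
    exact coeffMap_jqModC (R := ℚ) _
  rwa [h2] at h1

include D hℓ in
/-- **(G1)** `F_N` over `K` is Gauss-good. -/
theorem isGood_full : IsGood O (modularFunctionFieldFullC K N) :=
  (isGood_bigK O D hℓ).mono (full_le_bigK O D hℓ)

end Fermat.Agent.S28.Export

end
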