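import Fermat.Agent.S28.Export.Steps
import Fermat.Agent.S28.LinIndep

/-!
# S28 export, part IV: field theory of `k(t)(u)` inside `k((q))`

`χ ∈ k[Y][X]` monic irreducible, `χ(t, u) = 0`, `t` transcendental:
* `1, u, …, u^(n-1)` are independent over `k(t)`;
* they span `k(t, u)` over `k(t)`.
-/

set_option autoImplicit false

noncomputable section

open ModularCurve Polynomial

namespace Fermat.Agent.S28.Export

variable {k : Type*} [Field k]

/-- Linear independence of the powers of `u` over `k(t)`, with explicit fractions. -/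
theorem li_of_irreducible (tb ub : LaurentSeries k) (htb : Function.Injective (evalT tb))
    (χb : k[X][X]) (hirr : Irreducible χb) (hmonic : χb.Monic)
    (hroot : χb.eval₂ (evalT tb) ub = 0)
    (bb : ℕ → LaurentSeries k) (r s : ℕ → k[X]) (hs : ∀ i < χb.natDegree, s i ≠ 0)
    (hb : ∀ i < χb.natDegree, bb i * evalT tb (s i) = evalT tb (r i))
    (hsum : ∑ i ∈ Finset.range χb.natDegree, bb i * ub ^ i = 0) :
    ∀ i < χb.natDegree, bb i = 0 := by
  classical
  set n := χb.natDegree with hn
  let c : ℕ → k[X] := fun i => r i * ∏ l ∈ (Finset.range n).erase i, s l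
  let Q : k[X][X] := ∑ i ∈ Finset.range n, C (c i) * X ^ i
  have hQcoeff : ∀ i < n, Q.coeff i = c i := by
    intro i hi
    simp only [Q, finsetSum_coeff, coeff_C_mul_X_pow]
    rw [Finset.sum_eq_single i]
    · simp
    · intro j _ hj
      rw [if_neg (fun h => hj h.symm)]
    · intro h
      exact absurd (Finset.mem_range.2 hi) h
  have hQeval : Q.eval₂ (evalT tb) ub = 0 := by
    have : Q.eval₂ (evalT tb) ub =
        (∏ l ∈ Finset.range n, evalT tb (s l)) * ∑ i ∈ Finset.range n, bb i * ub ^ i := by
      simp only [Q]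
      rw [eval₂_finsetSum, Finset.mul_sum]
      refine Finset.sum_congr rfl fun i hi => ?_
      rw [eval₂_mul, eval₂_C, eval₂_pow, eval₂_X]
      simp only [c]
      rw [map_mul, map_prod, ← hb i (Finset.mem_range.1 hi),
        ← Finset.mul_prod_erase (Finset.range n) (fun l => evalT tb (s l)) hi]
      ring
    rw [this, hsum, mul_zero]
  have hQ0 : Q = 0 := by
    by_contra hne
    have hdeg : Q.natDegree < n := by
      rw [natDegree_lt_iff_degree_lt hne]
      have := Polynomial.degree_sum_fin_lt (fun i : Fin n => c i)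
      simp only [Q]
      rwa [Finset.sum_range (fun i => C (c i) * X ^ i)]
    exact hne (eq_zero_of_eval₂_eq_zero_of_natDegree_lt (evalT tb) htb χb hirr hmonic ub hroot Q
      hQeval hdeg)
  intro i hi
  have h1 : c i = 0 := by rw [← hQcoeff i hi, hQ0, coeff_zero]
  have h2 : ∏ l ∈ (Finset.range n).erase i, s l ≠ 0 := by
    rw [Finset.prod_ne_zero_iff]
    intro l hl
    exact hs l (Finset.mem_range.1 (Finset.mem_of_mem_erase hl))
  have h3 : r i = 0 := (mul_eq_zero.1 h1).resolve_right h2
  have h4 := hb i hi
  rw [h3, map_zero] at h4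
  refine (mul_eq_zero.1 h4).resolve_right ?_
  intro h5
  exact hs i hi (htb (by rw [h5, map_zero]))

/-- `k(t,u)` is spanned over `k(t)` by the first `n` powers of `u`. -/
theorem exists_span (t u : LaurentSeries k) (χ : k[X][X]) (hmonic : χ.Monic)
    (hroot : χ.eval₂ (evalT t) u = 0) (f : LaurentSeries k)
    (hf : f ∈ IntermediateField.adjoin k {t, u}) :
    ∃ a : ℕ → LaurentSeries k, (∀ i, a i ∈ IntermediateField.adjoin k {t}) ∧
      f = ∑ i ∈ Finset.range χ.natDegree, a i * u ^ i := by
  let E := IntermediateField.adjoin k {t}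
  have htE : t ∈ E := IntermediateField.mem_adjoin_simple_self k t
  let φ : k[X] →+* E := (aeval (⟨t, htE⟩ : E)).toRingHom
  have hφ : (algebraMap E (LaurentSeries k)).comp φ = evalT t := by
    refine Polynomial.ringHom_ext (fun a => ?_) ?_
    · simp only [φ, RingHom.comp_apply, AlgHom.toRingHom_eq_coe, RingHom.coe_coe, aeval_C, evalT_C]
      rw [← IsScalarTower.algebraMap_apply]
      exact algebraMap_laurentSeries_eq_single k a
    · simp only [φ, RingHom.comp_apply, AlgHom.toRingHom_eq_coe, RingHom.coe_coe, aeval_X, evalT_X]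
      rfl
  let χE : E[X] := χ.map φ
  have hχEm : χE.Monic := hmonic.map φ
  have hχEd : χE.natDegree = χ.natDegree := hmonic.natDegree_map φ
  have hχEr : aeval u χE = 0 := by
    rw [aeval_def, eval₂_map, hφ, hroot]
  have hint : IsIntegral E u := ⟨χE, hχEm, hχEr⟩
  have hle : IntermediateField.adjoin k {t, u} ≤
      (IntermediateField.adjoin E {u}).restrictScalars k := by
    rw [IntermediateField.adjoin_le_iff]
    rintro y (rfl | rfl)
    · exact (IntermediateField.adjoin E {u}).algebraMap_mem (⟨y, htE⟩ : E)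
    · exact IntermediateField.mem_adjoin_simple_self E y
  have hf' : f ∈ IntermediateField.adjoin E {u} := hle hf
  have hf'' : f ∈ (IntermediateField.adjoin E {u}).toSubalgebra := hf'
  rw [IntermediateField.adjoin_simple_toSubalgebra_of_isAlgebraic hint.isAlgebraic,
    Algebra.adjoin_singleton_eq_range_aeval] at hf''
  obtain ⟨p, hp⟩ := hf''
  replace hp : aeval u p = f := hp
  have hχ1 : χE ≠ 1 := by
    intro h1
    rw [h1, map_one] at hχEr
    exact one_ne_zero hχEr
  have h1 : aeval u (p %ₘ χE) = aeval u p := aeval_modByMonic_eq_self_of_root hχEr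
  have h2 : (p %ₘ χE).natDegree < χ.natDegree := by
    rw [← hχEd]; exact natDegree_modByMonic_lt p hχEm hχ1
  refine ⟨fun i => (((p %ₘ χE).coeff i : E) : LaurentSeries k), fun i => Subtype.mem _, ?_⟩
  rw [← hp, ← h1, aeval_eq_sum_range' h2]
  refine Finset.sum_congr rfl fun i _ => ?_
  rw [Algebra.smul_def]
  rfl

end Fermat.Agent.S28.Export

end
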